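/-
S36 top, abstract part, node A1a (owner helper85): a prime of the Hecke ring containing no nonzero
integer is an associated prime of the faithful lattice.
-/
import Mathlib

set_option autoImplicit false

namespace Fermat.Agent.S36.Top

/-- Step 1 (over `ℤ`): a prime `𝔭` of `𝕋` containing no nonzero integer is an associated prime of
the faithful module `Λ`. -/
theorem exists_annihilator_eq
    {Λ : Type*} [AddCommGroup Λ] [Module.Free ℤ Λ] [Module.Finite ℤ Λ]
    {𝕋 : Type*} [CommRing 𝕋] (act : 𝕋 →+* Module.End ℤ Λ) (hact : Function.Injective act)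
    (𝔭 : Ideal 𝕋) [𝔭.IsPrime] (h𝔭 : ∀ n : ℤ, (n : 𝕋) ∈ 𝔭 → n = 0) :
    ∃ y₀ : Λ, ∀ t : 𝕋, act t y₀ = 0 ↔ t ∈ 𝔭 := by
  let _ : Module 𝕋 Λ := Module.compHom Λ act
  have hsmul : ∀ (t : 𝕋) (y : Λ), t • y = act t y := fun _ _ => rfl
  -- `𝕋` is a finite `ℤ`-module
  have hfin : Module.Finite ℤ 𝕋 :=
    Module.Finite.of_injective (act.toAddMonoidHom.toIntLinearMap) hact
  have hnoeth : IsNoetherianRing 𝕋 := by
    have : IsNoetherian ℤ 𝕋 := isNoetherian_of_isNoetherianRing_of_finite ℤ 𝕋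
    exact isNoetherian_of_tower ℤ this
  have hint : Algebra.IsIntegral ℤ 𝕋 := Algebra.IsIntegral.of_finite ℤ 𝕋
  have hfinΛ : Module.Finite 𝕋 Λ := Module.Finite.of_restrictScalars_finite ℤ 𝕋 Λ
  -- faithful
  have hann : Module.annihilator 𝕋 Λ = ⊥ := by
    rw [eq_bot_iff]
    intro t ht
    rw [Module.mem_annihilator] at ht
    rw [Ideal.mem_bot]
    apply hact
    rw [map_zero]
    ext y
    exact ht y
  -- `𝔭` lies over `0`
  have hcomap : 𝔭.comap (algebraMap ℤ 𝕋) = ⊥ := by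
    rw [eq_bot_iff]
    intro n hn
    rw [Ideal.mem_comap, eq_intCast] at hn
    rw [Ideal.mem_bot]
    exact h𝔭 n hn
  -- `𝔭` is minimal
  have hmin : 𝔭 ∈ (Module.annihilator 𝕋 Λ).minimalPrimes := by
    rw [hann]
    refine ⟨⟨inferInstance, bot_le⟩, ?_⟩
    rintro q ⟨hq, -⟩ hq𝔭
    by_contra hnot
    obtain ⟨x, hx𝔭, hxq⟩ := Set.not_subset.mp hnot
    have := Ideal.comap_lt_comap_of_integral_mem_sdiff (R := ℤ) hq𝔭 ⟨hx𝔭, hxq⟩
      (Algebra.IsIntegral.isIntegral x)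
    rw [hcomap] at this
    exact not_lt_bot this
  have hass := Module.associatedPrimes.minimalPrimes_annihilator_subset_associatedPrimes 𝕋 Λ hmin
  obtain ⟨-, y₀, hy₀⟩ := (isAssociatedPrime_iff).mp hass
  refine ⟨y₀, fun t => ?_⟩
  rw [hy₀, Submodule.mem_colon_singleton, Submodule.mem_bot, hsmul]

end Fermat.Agent.S36.Top
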