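/-
S36 top, abstract part, node A1b (statement by helper36): an eigen-element of `𝒪 ⊗ R₀`.
-/
import Mathlib

set_option autoImplicit false

namespace Fermat.Agent.S36.Top

open IsLocalRing TensorProduct

/-- Step 2: `R₀` a commutative ring which is finite and free over `ℤ`, `ι : R₀ →+* 𝒪`.  Then the
`𝒪`-algebra `𝒪 ⊗ R₀` contains a nonzero element on which `1 ⊗ r` acts as `ι r`. -/
theorem exists_tensor_eigen
    {𝒪 : Type*} [CommRing 𝒪] [IsDomain 𝒪] [IsNoetherianRing 𝒪]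
    {R₀ : Type*} [CommRing R₀] [Module.Free ℤ R₀] [Module.Finite ℤ R₀] (ι : R₀ →+* 𝒪) :
    ∃ e : 𝒪 ⊗[ℤ] R₀, e ≠ 0 ∧ ∀ r : R₀, ((1 : 𝒪) ⊗ₜ[ℤ] r) * e = ι r • e := by
  have hfin : Module.Finite 𝒪 (𝒪 ⊗[ℤ] R₀) := inferInstance
  have hnoeth : IsNoetherianRing (𝒪 ⊗[ℤ] R₀) := IsNoetherianRing.of_finite 𝒪 _
  have hint : Algebra.IsIntegral 𝒪 (𝒪 ⊗[ℤ] R₀) := inferInstance
  let m : 𝒪 ⊗[ℤ] R₀ →ₐ[𝒪] 𝒪 :=
    Algebra.TensorProduct.lift (Algebra.ofId 𝒪 𝒪) ι.toIntAlgHom (fun _ _ => Commute.all _ _)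
  have hm : ∀ (a : 𝒪) (r : R₀), m (a ⊗ₜ[ℤ] r) = a * ι r := by
    intro a r
    simp [m]
  let n : Ideal (𝒪 ⊗[ℤ] R₀) := RingHom.ker (m : 𝒪 ⊗[ℤ] R₀ →+* 𝒪)
  have hn : n.IsPrime := RingHom.ker_isPrime _
  have hcomap : n.comap (algebraMap 𝒪 (𝒪 ⊗[ℤ] R₀)) = ⊥ := by
    rw [eq_bot_iff]
    intro a ha
    have h1 : m (algebraMap 𝒪 (𝒪 ⊗[ℤ] R₀) a) = 0 := ha
    rw [AlgHom.commutes] at h1
    exact h1
  have hmin : n ∈ (Module.annihilator (𝒪 ⊗[ℤ] R₀) (𝒪 ⊗[ℤ] R₀)).minimalPrimes := by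
    refine ⟨⟨hn, ?_⟩, ?_⟩
    · intro c hc
      have h1 : c • (1 : 𝒪 ⊗[ℤ] R₀) = 0 := Module.mem_annihilator.mp hc 1
      rw [smul_eq_mul, mul_one] at h1
      rw [h1]
      exact n.zero_mem
    · rintro q ⟨hq, -⟩ hqn
      by_contra hnq
      have := hq
      have hlt : q < n := lt_of_le_of_ne hqn (fun h => hnq h.ge)
      have := Ideal.IsIntegral.comap_lt_comap (R := 𝒪) hlt
      rw [hcomap] at this
      exact not_lt_bot this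
  have hass := Module.associatedPrimes.minimalPrimes_annihilator_subset_associatedPrimes
    (𝒪 ⊗[ℤ] R₀) (𝒪 ⊗[ℤ] R₀) hmin
  obtain ⟨-, e, he⟩ := isAssociatedPrime_iff.mp hass
  refine ⟨e, ?_, ?_⟩
  · rintro rfl
    apply hn.ne_top
    rw [he, eq_top_iff]
    intro c _
    rw [Submodule.mem_colon_singleton]
    simp
  · intro r
    have hmem : ((1 : 𝒪) ⊗ₜ[ℤ] r - (ι r) ⊗ₜ[ℤ] (1 : R₀) : 𝒪 ⊗[ℤ] R₀) ∈ n := by
      change m _ = 0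
      rw [map_sub, hm, hm, map_one, one_mul, mul_one, sub_self]
    rw [he, Submodule.mem_colon_singleton, Submodule.mem_bot, smul_eq_mul, sub_mul,
      sub_eq_zero] at hmem
    have h1 : (ι r) ⊗ₜ[ℤ] (1 : R₀) = ι r • (1 : 𝒪 ⊗[ℤ] R₀) := by
      rw [Algebra.TensorProduct.one_def, TensorProduct.smul_tmul', smul_eq_mul, mul_one]
    rw [hmem, h1, smul_mul_assoc, one_mul]

end Fermat.Agent.S36.Top
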