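/-
S36 top, abstract node A1c (task 797, owner helper101): an eigenvector in `𝒪 ⊗ Λ`.
-/
import Fermat.Agent.S36.Top.AssPrime
import Fermat.Agent.S36.Top.TensorEigen

set_option autoImplicit false

namespace Fermat.Agent.S36.Top

open TensorProduct

/-- **A1.** -/
theorem exists_eigenvector
    {𝒪 : Type*} [CommRing 𝒪] [IsDomain 𝒪] [IsNoetherianRing 𝒪] [CharZero 𝒪]
    {Λ : Type*} [AddCommGroup Λ] [Module.Free ℤ Λ] [Module.Finite ℤ Λ]
    {𝕋 : Type*} [CommRing 𝕋] (act : 𝕋 →+* Module.End ℤ Λ) (hact : Function.Injective act)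
    (𝔭 : Ideal 𝕋) [𝔭.IsPrime] (h𝔭 : ∀ n : ℤ, (n : 𝕋) ∈ 𝔭 → n = 0)
    {R : Type*} [CommRing R] (j : R →+* 𝕋) (χ : R →+* 𝒪) (hχ : ∀ r, j r ∈ 𝔭 → χ r = 0) :
    ∃ y : 𝒪 ⊗[ℤ] Λ, y ≠ 0 ∧ (∀ r : R, (act (j r)).baseChange 𝒪 y = χ r • y) ∧
      ∀ t ∈ 𝔭, (act t).baseChange 𝒪 y = 0 := by
  obtain ⟨y₀, hy₀⟩ := exists_annihilator_eq act hact 𝔭 h𝔭
  -- the orbit map
  let I : Ideal R := 𝔭.comap j
  let orb₀ : R →ₗ[ℤ] Λ :=
    { toFun := fun r => act (j r) y₀
      map_add' := fun a b => by simp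
      map_smul' := fun n a => by simp }
  have horb₀ : ∀ r, orb₀ r = act (j r) y₀ := fun _ => rfl
  let Iz : Submodule ℤ R := I.restrictScalars ℤ
  have hker : Iz ≤ LinearMap.ker orb₀ := by
    intro r hr
    rw [LinearMap.mem_ker, horb₀, hy₀]
    exact hr
  let orbit : (R ⧸ I) →ₗ[ℤ] Λ :=
    { toFun := Quotient.lift (s := Submodule.quotientRel I) (fun r => orb₀ r) (by
        intro a b hab
        have h1 : a - b ∈ I := (Submodule.quotientRel_def I).mp hab
        have h2 : orb₀ (a - b) = 0 := hker h1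
        rw [map_sub, sub_eq_zero] at h2
        exact h2)
      map_add' := by
        intro a b
        obtain ⟨a, rfl⟩ := Ideal.Quotient.mk_surjective a
        obtain ⟨b, rfl⟩ := Ideal.Quotient.mk_surjective b
        exact map_add orb₀ a b
      map_smul' := by
        intro n a
        obtain ⟨a, rfl⟩ := Ideal.Quotient.mk_surjective a
        exact map_smul orb₀ n a }
  have horbit : ∀ r : R, orbit (Ideal.Quotient.mk I r) = act (j r) y₀ := fun _ => rfl
  have hinj : Function.Injective orbit := by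
    rw [injective_iff_map_eq_zero]
    intro a ha
    obtain ⟨a, rfl⟩ := Ideal.Quotient.mk_surjective a
    rw [horbit, hy₀] at ha
    exact Ideal.Quotient.eq_zero_iff_mem.mpr ha
  have : Module.Finite ℤ (R ⧸ I) := Module.Finite.of_injective orbit hinj
  have : Module.IsTorsionFree ℤ (R ⧸ I) := hinj.moduleIsTorsionFree orbit (fun n x => map_smul orbit n x)
  have : Module.Free ℤ (R ⧸ I) := inferInstance
  let ι : (R ⧸ I) →+* 𝒪 := Ideal.Quotient.lift I χ (fun r hr => hχ r hr)
  obtain ⟨e, he0, he⟩ := exists_tensor_eigen ι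
  have hflat : Module.Flat ℤ 𝒪 := inferInstance
  have hinj' : Function.Injective (orbit.baseChange 𝒪) := by
    rw [LinearMap.baseChange_eq_ltensor]
    exact Module.Flat.lTensor_preserves_injective_linearMap orbit hinj
  have hequiv : ∀ (r : R) (x : 𝒪 ⊗[ℤ] (R ⧸ I)),
      (act (j r)).baseChange 𝒪 (orbit.baseChange 𝒪 x)
        = orbit.baseChange 𝒪 (((1 : 𝒪) ⊗ₜ[ℤ] (Ideal.Quotient.mk I r)) * x) := by
    intro r x
    induction x using TensorProduct.induction_on with
    | zero => simp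
    | add x y hx hy => rw [map_add, map_add, hx, hy, mul_add, map_add]
    | tmul a s =>
      obtain ⟨s, rfl⟩ := Ideal.Quotient.mk_surjective s
      rw [Algebra.TensorProduct.tmul_mul_tmul, LinearMap.baseChange_tmul, LinearMap.baseChange_tmul,
        LinearMap.baseChange_tmul, ← map_mul, horbit, horbit, one_mul, map_mul, map_mul]
      rfl
  have hkill : ∀ t ∈ 𝔭, ∀ x : 𝒪 ⊗[ℤ] (R ⧸ I),
      (act t).baseChange 𝒪 (orbit.baseChange 𝒪 x) = 0 := by
    intro t ht x
    induction x using TensorProduct.induction_on with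
    | zero => simp
    | add x y hx hy => rw [map_add, map_add, hx, hy, add_zero]
    | tmul a s =>
      obtain ⟨s, rfl⟩ := Ideal.Quotient.mk_surjective s
      rw [LinearMap.baseChange_tmul, LinearMap.baseChange_tmul, horbit]
      have h1 : act t (act (j s) y₀) = act (j s) (act t y₀) := by
        rw [← Module.End.mul_apply, ← Module.End.mul_apply, ← map_mul, ← map_mul, mul_comm]
      rw [h1, (hy₀ t).mpr ht, map_zero, tmul_zero]
  refine ⟨orbit.baseChange 𝒪 e, ?_, ?_, ?_⟩
  · intro h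
    exact he0 (hinj' (by rw [h, map_zero]))
  · intro r
    rw [hequiv, he, map_smul]
    rfl
  · intro t ht
    exact hkill t ht e

end Fermat.Agent.S36.Top
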