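/-
S36 top, node G3 (architect helper36, proof helper222): the transported Galois action commutes with
the Hecke algebra away from the level.
-/
import Fermat.Agent.GAL.Tower

set_option autoImplicit false

namespace Fermat.Agent.S36

open Fermat.Agent.GAL Fermat.Agent.S30 Fermat.Agent.Lib.HeckeHom CuspForm
open Fermat.Agent.S16.Lift (homPE)

/-- Node G3, helper (self-contained copy of the surjectivity of `polyHom` away from the level):
every element of the Hecke algebra away from the level is a polynomial in the `T_ℓ`. -/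
theorem commute_exists_polyHom_eq (N : ℕ) [NeZero N] (S : Set ℕ)
    (hS : ∀ q : ℕ, q.Prime → q ∣ N → q ∈ S) (t : heckeAlgebra N 2 S) :
    ∃ P : HA, polyHom N S P = t := by
  obtain ⟨T, hT⟩ := t
  induction hT using Algebra.adjoin_induction with
  | mem x hx =>
    rcases hx with ⟨ℓ, hℓ, hℓN, hℓS, rfl⟩ | ⟨q, hqN, hq, hqS, rfl⟩
    · exact ⟨MvPolynomial.X ℓ, by rw [polyHom_X, tOf_eq N S hℓ hℓN hℓS]; rfl⟩
    · exact absurd (hS q hq hqN) hqS
  | algebraMap r =>
    refine ⟨MvPolynomial.C r, ?_⟩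
    apply Subtype.ext
    simp [polyHom]
  | add x y hx hy ihx ihy =>
    obtain ⟨P, hP⟩ := ihx
    obtain ⟨Q, hQ⟩ := ihy
    exact ⟨P + Q, by rw [map_add, hP, hQ]; rfl⟩
  | mul x y hx hy ihx ihy =>
    obtain ⟨P, hP⟩ := ihx
    obtain ⟨Q, hQ⟩ := ihy
    exact ⟨P * Q, by rw [map_mul, hP, hQ]; rfl⟩

theorem LayerData.r_actMod {N : ℕ} [NeZero N] {n : ℕ} (D : LayerData N n) (S₁ : Finset ℕ)
    (hS₁ : ∀ q : ℕ, q.Prime → q ∣ N → q ∈ S₁) (σ : GQ) (t : heckeAlgebra N 2 (↑S₁ : Set ℕ))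
    (w : homPE N (ZMod n)) :
    D.r σ (actMod N (↑S₁ : Set ℕ) n t w) = actMod N (↑S₁ : Set ℕ) n t (D.r σ w) := by
  obtain ⟨P, rfl⟩ := commute_exists_polyHom_eq N (↑S₁ : Set ℕ)
    (fun q hq hqN => Finset.mem_coe.mpr (hS₁ q hq hqN)) t
  exact D.r_smul S₁ σ P w

end Fermat.Agent.S36
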