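/-
S36 top, node A5 : `(g - 1) ^ 2 = 0` for all `g` implies `J ^ 3 = 0`.
-/
import Mathlib

set_option autoImplicit false

namespace Fermat.Agent.S36.Top

namespace Cube

section Ring

variable {S : Type*} [Ring S]

/-- The basic computation: `B A B = 0`. -/
theorem mul_mul_eq_zero (h2 : ∀ T : S, T + T = 0 → T = 0) {A B : S} (hA : A * A = 0)
    (hB : B * B = 0) (h1 : (A + B + A * B) * (A + B + A * B) = 0)
    (h1' : (A - B - A * B) * (A - B - A * B) = 0) : B * A * B = 0 := by
  have e1 : A * B + B * A + B * A * B + A * B * A + A * B * A * B = 0 := by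
    have : A * B + B * A + B * A * B + A * B * A + A * B * A * B =
        (A + B + A * B) * (A + B + A * B) - (A * A) * (1 + B) - (1 + A) * (B * B) := by
      noncomm_ring
    rw [this, h1, hA, hB]; simp
  have e2 : -(A * B) - B * A + B * A * B - A * B * A + A * B * A * B = 0 := by
    have : -(A * B) - B * A + B * A * B - A * B * A + A * B * A * B =
        (A - B - A * B) * (A - B - A * B) - (A * A) * (1 - B) - (1 + A) * (B * B) := by
      noncomm_ring
    rw [this, h1', hA, hB]; simp
  have e3 : (1 + A) * (B * A * B) = 0 := by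
    apply h2
    have : (1 + A) * (B * A * B) + (1 + A) * (B * A * B) =
        (A * B + B * A + B * A * B + A * B * A + A * B * A * B) +
        (-(A * B) - B * A + B * A * B - A * B * A + A * B * A * B) := by
      noncomm_ring
    rw [this, e1, e2, add_zero]
  have : B * A * B = (1 - A) * ((1 + A) * (B * A * B)) + (A * A) * (B * A * B) := by
    noncomm_ring
  rw [this, e3, hA]; simp

/-- anticommutation. -/
theorem mul_add_mul_eq_zero {A B : S} (hA : A * A = 0)
    (hB : B * B = 0) (h1 : (A + B + A * B) * (A + B + A * B) = 0)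
    (hBAB : B * A * B = 0) (hABA : A * B * A = 0) : A * B + B * A = 0 := by
  have : A * B + B * A =
      (A + B + A * B) * (A + B + A * B) - (A * A) * (1 + B) - (1 + A) * (B * B)
        - B * A * B - A * B * A - A * (B * A * B) := by
    noncomm_ring
  rw [this, h1, hA, hB, hBAB, hABA]; simp

end Ring

section Group

variable {G : Type*} [Group G] {S : Type*} [Ring S] (u : G →* S)

theorem map_inv_sub_one (hsq : ∀ g, (u g - 1) * (u g - 1) = 0) (g : G) :
    u g⁻¹ - 1 = -(u g - 1) := by
  have h1 : u g⁻¹ * u g = 1 := by rw [← map_mul, inv_mul_cancel, map_one]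
  have h2 : u g⁻¹ = u g⁻¹ * u g * (1 - (u g - 1)) + u g⁻¹ * ((u g - 1) * (u g - 1)) := by
    noncomm_ring
  rw [h1, hsq] at h2
  rw [h2]; noncomm_ring

theorem map_mul_sub_one (g h : G) :
    u (g * h) - 1 = (u g - 1) + (u h - 1) + (u g - 1) * (u h - 1) := by
  rw [map_mul]; noncomm_ring

theorem anticomm (h2 : ∀ T : S, T + T = 0 → T = 0) (hsq : ∀ g, (u g - 1) * (u g - 1) = 0)
    (a b : G) : (u a - 1) * (u b - 1) + (u b - 1) * (u a - 1) = 0 := by
  have key : ∀ a b : G, (u b - 1) * (u a - 1) * (u b - 1) = 0 := by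
    intro a b
    apply mul_mul_eq_zero h2 (hsq a) (hsq b)
    · rw [← map_mul_sub_one]; exact hsq _
    · have := hsq (a * b⁻¹)
      rw [map_mul_sub_one, map_inv_sub_one u hsq] at this
      have e : u a - 1 - (u b - 1) - (u a - 1) * (u b - 1) =
          u a - 1 + -(u b - 1) + (u a - 1) * -(u b - 1) := by noncomm_ring
      rw [e]; exact this
  apply mul_add_mul_eq_zero (hsq a) (hsq b) _ (key a b) (key b a)
  rw [← map_mul_sub_one]; exact hsq _

theorem cube (h2 : ∀ T : S, T + T = 0 → T = 0) (hsq : ∀ g, (u g - 1) * (u g - 1) = 0)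
    (a b c : G) : (u a - 1) * (u b - 1) * (u c - 1) = 0 := by
  have hab := anticomm u h2 hsq (a * b) c
  have hac := anticomm u h2 hsq a c
  have hbc := anticomm u h2 hsq b c
  rw [map_mul_sub_one] at hab
  set A := u a - 1
  set B := u b - 1
  set C := u c - 1
  apply h2
  have : A * B * C + A * B * C =
      ((A + B + A * B) * C + C * (A + B + A * B)) - (A * C + C * A) - (B * C + C * B)
        - (A * C + C * A) * B + A * (B * C + C * B) := by
    noncomm_ring
  rw [this, hab, hac, hbc]; simp

end Group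

section EndLemmas

variable {E : Type*} [AddCommGroup E]

theorem end_mul_apply (f g : AddMonoid.End E) (x : E) : (f * g) x = f (g x) := rfl

theorem end_sub_apply (f g : AddMonoid.End E) (x : E) : (f - g) x = f x - g x := rfl

theorem end_one_apply (x : E) : (1 : AddMonoid.End E) x = x := rfl

theorem end_zero_apply (x : E) : (0 : AddMonoid.End E) x = 0 := rfl

end EndLemmas

end Cube

theorem sub_one_cube_eq_zero
    {G : Type*} [Group G] {E : Type*} [AddCommGroup E] (ρ : G →* AddMonoid.End E)
    (h2 : ∀ x : E, 2 • x = 0 → x = 0)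
    (hsq : ∀ (g : G) (x : E), ρ g (ρ g x) - 2 • ρ g x + x = 0) (a b c : G) (x : E) :
    (ρ a - 1) ((ρ b - 1) ((ρ c - 1) x)) = 0 := by
  have h2' : ∀ T : AddMonoid.End E, T + T = 0 → T = 0 := by
    intro T hT
    ext x
    apply h2
    have := DFunLike.congr_fun hT x
    rw [two_smul]
    exact this
  have hsq' : ∀ g, (ρ g - 1) * (ρ g - 1) = 0 := by
    intro g
    ext x
    have := hsq g x
    simp only [Cube.end_mul_apply, Cube.end_sub_apply, Cube.end_one_apply,
      map_sub, Cube.end_zero_apply]
    rw [← this, two_smul]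
    abel
  have := DFunLike.congr_fun (Cube.cube ρ h2' hsq' a b c) x
  simpa only [Cube.end_mul_apply, Cube.end_zero_apply] using this

/-- if `C` kills the invariants then `C ^ 3` kills everything. -/
theorem pow_three_nsmul_eq_zero
    {G : Type*} [Group G] {E : Type*} [AddCommGroup E] (ρ : G →* AddMonoid.End E)
    (h2 : ∀ x : E, 2 • x = 0 → x = 0)
    (hsq : ∀ (g : G) (x : E), ρ g (ρ g x) - 2 • ρ g x + x = 0)
    (C : ℕ) (hC : ∀ x : E, (∀ g, ρ g x = x) → C • x = 0) (x : E) : (C ^ 3) • x = 0 := by
  have hinv : ∀ y : E, (∀ g, (ρ g - 1) y = 0) → C • y = 0 := by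
    intro y hy
    apply hC
    intro g
    have := hy g
    rwa [Cube.end_sub_apply, Cube.end_one_apply, sub_eq_zero] at this
  have s1 : ∀ b c : G, C • ((ρ b - 1) ((ρ c - 1) x)) = 0 := fun b c =>
    hinv _ fun a => sub_one_cube_eq_zero ρ h2 hsq a b c x
  have s2 : ∀ c : G, C • (C • ((ρ c - 1) x)) = 0 := fun c =>
    hinv _ fun b => by rw [map_nsmul]; exact s1 b c
  have s3 : C • (C • (C • x)) = 0 :=
    hinv _ fun c => by rw [map_nsmul, map_nsmul]; exact s2 c
  rw [pow_succ, pow_succ, pow_one, mul_smul, mul_smul]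
  exact s3

end Fermat.Agent.S36.Top
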