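/-
S36 top, node A4 : invariants commute with the flat base change `ℤ → 𝒪`.
-/
import Mathlib

set_option autoImplicit false

namespace Fermat.Agent.S36.Top

open TensorProduct

theorem baseChange_eq_zero_of_forall
    {𝒪 : Type*} [CommRing 𝒪] [Module.Flat ℤ 𝒪]
    {W : Type*} [AddCommGroup W] [Finite W] {ι : Type*} (f : ι → Module.End ℤ W)
    (h : Module.End ℤ W) (hh : ∀ w : W, (∀ i, f i w = 0) → h w = 0)
    (v : 𝒪 ⊗[ℤ] W) (hv : ∀ i, (f i).baseChange 𝒪 v = 0) : h.baseChange 𝒪 v = 0 := by
  classical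
  have : Finite (Module.End ℤ W) := Finite.of_injective (fun g : Module.End ℤ W => (g : W → W))
    DFunLike.coe_injective
  let s : Set (Module.End ℤ W) := Set.range f
  have : Finite s := inferInstance
  have : Fintype s := Fintype.ofFinite s
  let F : W →ₗ[ℤ] (s → W) := LinearMap.pi fun g => g.1
  let K : Submodule ℤ W := LinearMap.ker F
  have hex : Function.Exact K.subtype F := by
    intro w
    constructor
    · intro hw
      exact ⟨⟨w, hw⟩, rfl⟩
    · rintro ⟨k, rfl⟩
      exact k.2
  have hex' := Module.Flat.lTensor_exact 𝒪 hex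
  have hproj : ∀ (g : s) (t : 𝒪 ⊗[ℤ] W),
      TensorProduct.piRight ℤ ℤ 𝒪 (fun _ : s => W) (F.lTensor 𝒪 t) g = (g.1).lTensor 𝒪 t := by
    intro g t
    induction t using TensorProduct.induction_on with
    | zero => simp
    | tmul a w => simp [F]
    | add x y hx hy => simp only [map_add, Pi.add_apply, hx, hy]
  have hFv : F.lTensor 𝒪 v = 0 := by
    apply (TensorProduct.piRight ℤ ℤ 𝒪 (fun _ : s => W)).injective
    rw [map_zero]
    funext g
    rw [hproj]
    obtain ⟨g, i, rfl⟩ := g
    exact hv i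
  obtain ⟨v', rfl⟩ := (hex' v).1 hFv
  have hcomp : h ∘ₗ K.subtype = 0 := by
    ext k
    apply hh
    intro i
    have := congrFun (show F k = 0 from k.2) ⟨f i, i, rfl⟩
    exact this
  change h.lTensor 𝒪 (K.subtype.lTensor 𝒪 v') = 0
  rw [← LinearMap.lTensor_comp_apply, hcomp, LinearMap.lTensor_zero, LinearMap.zero_apply]

end Fermat.Agent.S36.Top
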