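/-
S36 top, node A6 (task 802, helper275): an element outside a prime `𝔭` of a ring integral over `ℤ`
divides a nonzero integer modulo `𝔭`.
-/
import Mathlib

set_option autoImplicit false

namespace Fermat.Agent.S36.Top

theorem exists_mul_sub_intCast_mem
    {𝕋 : Type*} [CommRing 𝕋] [Algebra.IsIntegral ℤ 𝕋] (𝔭 : Ideal 𝕋) [𝔭.IsPrime]
    (P₀ : 𝕋) (hP₀ : P₀ ∉ 𝔭) : ∃ (Q₀ : 𝕋) (n : ℕ), n ≠ 0 ∧ Q₀ * P₀ - (n : 𝕋) ∈ 𝔭 := by
  set x : 𝕋 ⧸ 𝔭 := Ideal.Quotient.mk 𝔭 P₀ with hx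
  have hx0 : x ≠ 0 := by
    rw [hx, Ne, Ideal.Quotient.eq_zero_iff_mem]; exact hP₀
  have hint : IsIntegral ℤ x := (Algebra.IsIntegral.isIntegral (R := ℤ) P₀).map
    (Ideal.Quotient.mkₐ ℤ 𝔭)
  obtain ⟨z, hz0, y, hy⟩ := hint.isAlgebraic.exists_nonzero_dvd (mem_nonZeroDivisors_of_ne_zero hx0)
  obtain ⟨Q, rfl⟩ := Ideal.Quotient.mk_surjective y
  have key : Q * P₀ - (z : 𝕋) ∈ 𝔭 := by
    rw [← Ideal.Quotient.eq_zero_iff_mem, map_sub, map_mul, map_intCast, sub_eq_zero, mul_comm,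
      ← hx, ← hy]
    simp
  rcases le_total 0 z with h | h
  · refine ⟨Q, z.natAbs, by simpa using hz0, ?_⟩
    have : ((z.natAbs : ℕ) : 𝕋) = (z : 𝕋) := by
      rw [← Int.cast_natCast, Int.natAbs_of_nonneg h]
    rwa [this]
  · refine ⟨-Q, z.natAbs, by simpa using hz0, ?_⟩
    have : ((z.natAbs : ℕ) : 𝕋) = -(z : 𝕋) := by
      rw [← Int.cast_natCast, Int.ofNat_natAbs_of_nonpos h, Int.cast_neg]
    rw [this]
    have e : -Q * P₀ - -(z : 𝕋) = -(Q * P₀ - (z : 𝕋)) := by ring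
    rw [e]
    exact 𝔭.neg_mem key

end Fermat.Agent.S36.Top
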