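/-
S36 top, abstract part, node A2: primitive vectors in finite free modules over a discrete
valuation ring.
-/
import Mathlib

set_option autoImplicit false

namespace Fermat.Agent.S36.Top

open IsLocalRing TensorProduct

theorem exists_primitive
    {𝒪 : Type*} [CommRing 𝒪] [IsDomain 𝒪] [IsDiscreteValuationRing 𝒪]
    {V : Type*} [AddCommGroup V] [Module 𝒪 V] [Module.Free 𝒪 V] [Module.Finite 𝒪 V]
    (y : V) (hy : y ≠ 0) :
    ∃ (a : 𝒪) (y' : V), a ≠ 0 ∧ y = a • y' ∧ y' ∉ maximalIdeal 𝒪 • (⊤ : Submodule 𝒪 V) := by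
  classical
  obtain ⟨ϖ, hϖ⟩ := IsDiscreteValuationRing.exists_irreducible 𝒪
  have hm : maximalIdeal 𝒪 = Ideal.span {ϖ} := hϖ.maximalIdeal_eq
  have hK : (⨅ i : ℕ, maximalIdeal 𝒪 ^ i • (⊤ : Submodule 𝒪 V)) = ⊥ :=
    Ideal.iInf_pow_smul_eq_bot_of_isLocalRing (maximalIdeal 𝒪)
      (Ideal.IsPrime.ne_top inferInstance)
  have hex : ∃ n : ℕ, y ∉ maximalIdeal 𝒪 ^ n • (⊤ : Submodule 𝒪 V) := by
    by_contra hcon
    push Not at hcon
    have : y ∈ (⨅ i : ℕ, maximalIdeal 𝒪 ^ i • (⊤ : Submodule 𝒪 V)) :=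
      (Submodule.mem_iInf _).mpr hcon
    rw [hK] at this
    exact hy ((Submodule.mem_bot 𝒪).mp this)
  have hn := Nat.find_spec hex
  have hmin := fun k (hk : k < Nat.find hex) => Nat.find_min hex hk
  set n := Nat.find hex with hn_def
  have hn0 : n ≠ 0 := by
    intro h0
    rw [h0, pow_zero, Ideal.one_eq_top, Submodule.top_smul] at hn
    exact hn Submodule.mem_top
  obtain ⟨k, hk⟩ := Nat.exists_eq_succ_of_ne_zero hn0
  have h1 : y ∈ maximalIdeal 𝒪 ^ k • (⊤ : Submodule 𝒪 V) := by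
    have := hmin k (by omega)
    push Not at this
    exact this
  rw [hm, Ideal.span_singleton_pow, Submodule.ideal_span_singleton_smul] at h1
  obtain ⟨y', -, hy'⟩ := (Submodule.mem_smul_pointwise_iff_exists _ _ _).mp h1
  refine ⟨ϖ ^ k, y', pow_ne_zero _ hϖ.ne_zero, hy'.symm, ?_⟩
  intro hmem
  apply hn
  rw [hk, Nat.succ_eq_add_one, pow_succ, mul_smul, hm, Ideal.span_singleton_pow,
    Submodule.ideal_span_singleton_smul, ← hy', ← hm]
  exact Submodule.smul_mem_pointwise_smul _ _ _ hmem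

/-- a multiple of a primitive vector is divisible by `b` only if the scalar is. -/
theorem dvd_of_smul_primitive
    {𝒪 : Type*} [CommRing 𝒪] [IsDomain 𝒪] [IsDiscreteValuationRing 𝒪]
    {V : Type*} [AddCommGroup V] [Module 𝒪 V] [Module.Free 𝒪 V] [Module.Finite 𝒪 V]
    (y : V) (hy : y ∉ maximalIdeal 𝒪 • (⊤ : Submodule 𝒪 V)) (a b : 𝒪) (z : V)
    (h : a • y = b • z) : b ∣ a := by
  rcases ValuationRing.dvd_total b a with hba | ⟨c, rfl⟩
  · exact hba
  by_cases ha : a = 0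
  · rw [ha]; exact dvd_zero _
  by_cases hc : IsUnit c
  · obtain ⟨u, rfl⟩ := hc
    exact ⟨(↑u⁻¹ : 𝒪), by rw [mul_assoc, Units.mul_inv, mul_one]⟩
  exfalso
  apply hy
  rw [mul_smul] at h
  have h2 : y = c • z := smul_right_injective V ha h
  rw [h2]
  exact Submodule.smul_mem_smul ((mem_maximalIdeal c).mpr hc) Submodule.mem_top

end Fermat.Agent.S36.Top
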