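/-
S36 top, node A3: the kernel of `𝒪 ⊗ Λ → 𝒪 ⊗ W`.  Owner: helper164.
-/
import Mathlib

set_option autoImplicit false

namespace Fermat.Agent.S36.Top

open IsLocalRing TensorProduct

theorem exists_eq_smul_of_baseChange_eq_zero
    {𝒪 : Type*} [CommRing 𝒪]
    {Λ W : Type*} [AddCommGroup Λ] [AddCommGroup W] (π : Λ →ₗ[ℤ] W) (hπ : Function.Surjective π)
    (n : ℕ) (hker : ∀ x, π x = 0 → ∃ y, x = n • y)
    (v : 𝒪 ⊗[ℤ] Λ) (hv : π.baseChange 𝒪 v = 0) : ∃ z : 𝒪 ⊗[ℤ] Λ, v = (n : 𝒪) • z := by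
  have hex : Function.Exact (LinearMap.ker π).subtype π := by
    intro x
    simp
  have hex2 := lTensor_exact 𝒪 hex hπ
  have hv' : (π.lTensor 𝒪) v = 0 := by
    simpa [LinearMap.baseChange_eq_ltensor] using hv
  obtain ⟨w, rfl⟩ := (hex2 v).mp hv'
  induction w using TensorProduct.induction_on with
  | zero => exact ⟨0, by simp⟩
  | tmul a x =>
    obtain ⟨y, hy⟩ := hker x.1 x.2
    refine ⟨a ⊗ₜ y, ?_⟩
    simp only [LinearMap.lTensor_tmul, Submodule.subtype_apply]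
    rw [hy, TensorProduct.tmul_smul, Nat.cast_smul_eq_nsmul]
  | add a b ha hb =>
    obtain ⟨z₁, h₁⟩ := ha (by
      have := (hex2 ((LinearMap.lTensor 𝒪 (LinearMap.ker π).subtype) a)).mpr ⟨a, rfl⟩
      simpa [LinearMap.baseChange_eq_ltensor] using this) (by
      exact (hex2 _).mpr ⟨a, rfl⟩)
    obtain ⟨z₂, h₂⟩ := hb (by
      have := (hex2 ((LinearMap.lTensor 𝒪 (LinearMap.ker π).subtype) b)).mpr ⟨b, rfl⟩
      simpa [LinearMap.baseChange_eq_ltensor] using this) (by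
      exact (hex2 _).mpr ⟨b, rfl⟩)
    exact ⟨z₁ + z₂, by rw [map_add, h₁, h₂, smul_add]⟩

end Fermat.Agent.S36.Top
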