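/-
S36 top, abstract part, node A7: the abstract contradiction `false_of_unipotent`
(assembly of the nodes A1..A6).   Owner: helper79 (architect helper36).
-/
import Mathlib
import Fermat.Agent.S36.Top.Eigen
import Fermat.Agent.S36.Top.Primitive
import Fermat.Agent.S36.Top.Reduce
import Fermat.Agent.S36.Top.FlatInv
import Fermat.Agent.S36.Top.Cube
import Fermat.Agent.S36.Top.Integer

set_option autoImplicit false

namespace Fermat.Agent.S36.Top

open IsLocalRing TensorProduct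

/-- The heart of the argument, on an abstract `𝒪`-module `V`: apply `pow_three_nsmul_eq_zero` to the
submodule of `V` cut out by the eigen-equations. -/
theorem Main.pow_three_nsmul_eq_zero_of_eigen
    {𝒪 : Type*} [CommRing 𝒪] {V : Type*} [AddCommGroup V] [Module 𝒪 V]
    {G : Type*} [Group G] {𝕋 : Type*} [CommRing 𝕋] {R : Type*} [CommRing R]
    (j : R →+* 𝕋) (χ : R →+* 𝒪)
    (σ : G →* Module.End 𝒪 V) (τ : 𝕋 →+* Module.End 𝒪 V)
    (hcomm : ∀ g t v, σ g (τ t v) = τ t (σ g v))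
    (𝔭 : Ideal 𝕋) (I : Ideal 𝒪)
    (h2 : ∀ v : V, 2 • v = 0 → v = 0)
    (huni : ∀ g, ∃ r : R, (∀ v, σ g v + σ g⁻¹ v = τ (j r) v) ∧ χ r - 2 ∈ I)
    (C : ℕ)
    (hC : ∀ v : V, (∀ t ∈ 𝔭, τ t v = 0) → (∀ g, σ g v = v) → C • v = 0)
    (x : V) (hx1 : ∀ r, τ (j r) x = χ r • x) (hx2 : ∀ t ∈ 𝔭, τ t x = 0)
    (hx3 : ∀ a ∈ I, a • x = 0) : (C ^ 3) • x = 0 := by
  let E : Submodule 𝒪 V :=
    { carrier := {v | (∀ r, τ (j r) v = χ r • v) ∧ (∀ t ∈ 𝔭, τ t v = 0) ∧ ∀ a ∈ I, a • v = 0}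
      add_mem' := by
        rintro u v ⟨hu1, hu2, hu3⟩ ⟨hv1, hv2, hv3⟩
        refine ⟨fun r => ?_, fun t ht => ?_, fun a ha => ?_⟩
        · rw [map_add, hu1, hv1, smul_add]
        · rw [map_add, hu2 t ht, hv2 t ht, add_zero]
        · rw [smul_add, hu3 a ha, hv3 a ha, add_zero]
      zero_mem' := by
        refine ⟨fun r => ?_, fun t _ => ?_, fun a _ => ?_⟩
        · rw [map_zero, smul_zero]
        · rw [map_zero]
        · rw [smul_zero]
      smul_mem' := by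
        rintro c v ⟨hv1, hv2, hv3⟩
        refine ⟨fun r => ?_, fun t ht => ?_, fun a ha => ?_⟩
        · rw [map_smul, hv1, smul_comm]
        · rw [map_smul, hv2 t ht, smul_zero]
        · rw [smul_comm, hv3 a ha, smul_zero] }
  have hσE : ∀ g, ∀ v ∈ E, σ g v ∈ E := by
    rintro g v ⟨hv1, hv2, hv3⟩
    refine ⟨fun r => ?_, fun t ht => ?_, fun a ha => ?_⟩
    · rw [← hcomm, hv1, map_smul]
    · rw [← hcomm, hv2 t ht, map_zero]
    · rw [← map_smul, hv3 a ha, map_zero]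
  let ρE : G →* AddMonoid.End E :=
    { toFun := fun g => ((σ g).restrict (hσE g)).toAddMonoidHom
      map_one' := by
        ext v
        change σ 1 (v : V) = v
        rw [map_one, Module.End.one_apply]
      map_mul' := by
        intro g h
        ext v
        change σ (g * h) (v : V) = σ g (σ h (v : V))
        rw [map_mul, Module.End.mul_apply] }
  have hρE : ∀ g (v : E), ((ρE g v : E) : V) = σ g v := fun g v => rfl
  have hsum : ∀ g (v : V), v ∈ E → σ g v + σ g⁻¹ v = 2 • v := by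
    rintro g v ⟨hv1, hv2, hv3⟩
    obtain ⟨r, hr, hrI⟩ := huni g
    rw [hr, hv1]
    have := hv3 _ hrI
    rw [sub_smul, sub_eq_zero] at this
    rw [this, ofNat_smul_eq_nsmul]
  have key := pow_three_nsmul_eq_zero ρE
    (fun v hv => by
      apply Subtype.ext
      apply h2
      simpa using congrArg Subtype.val hv)
    (fun g v => by
      apply Subtype.ext
      have h1 := hsum g (σ g v) (hσE g v v.2)
      have h3 : σ g⁻¹ (σ g v) = v := by
        rw [← Module.End.mul_apply, ← map_mul, inv_mul_cancel, map_one, Module.End.one_apply]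
      rw [h3] at h1
      simp only [Submodule.coe_add, Submodule.coe_sub, Submodule.coe_smul_of_tower, hρE,
        Submodule.coe_zero]
      rw [← h1]
      abel)
    C
    (fun v hv => by
      apply Subtype.ext
      have := hC v v.2.2.1 (fun g => by rw [← hρE, hv])
      simpa using this)
    ⟨x, hx1, hx2, hx3⟩
  simpa using congrArg Subtype.val key

/-- **A7.** the abstract contradiction -/
theorem false_of_unipotent
    {𝒪 : Type*} [CommRing 𝒪] [IsDomain 𝒪] [IsDiscreteValuationRing 𝒪] [CharZero 𝒪]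
    (p : ℕ) (hp : p.Prime) (hp2 : p ≠ 2) (hp𝒪 : (p : 𝒪) ∈ maximalIdeal 𝒪)
    {Λ : Type*} [AddCommGroup Λ] [Module.Free ℤ Λ] [Module.Finite ℤ Λ]
    {𝕋 : Type*} [CommRing 𝕋] (act : 𝕋 →+* Module.End ℤ Λ) (hact : Function.Injective act)
    (𝔭 : Ideal 𝕋) [𝔭.IsPrime] (h𝔭 : ∀ n : ℤ, (n : 𝕋) ∈ 𝔭 → n = 0)
    {R : Type*} [CommRing R] (j : R →+* 𝕋) (χ : R →+* 𝒪) (hχ : ∀ r, j r ∈ 𝔭 → χ r = 0)
    (P₀ : 𝕋) (hP₀ : P₀ ∉ 𝔭) (c₀ : ℕ) (hc₀ : c₀ ≠ 0)
    {G : Type*} [Group G]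
    (W : ℕ → Type*) [∀ k, AddCommGroup (W k)]
    (π : ∀ k, Λ →ₗ[ℤ] W k) (hπ : ∀ k, Function.Surjective (π k))
    (hker : ∀ k x, π k x = 0 → ∃ y, x = (p ^ k : ℕ) • y)
    (hpk : ∀ k (w : W k), (p ^ k : ℕ) • w = 0)
    (actW : ∀ k, 𝕋 →+* Module.End ℤ (W k))
    (hactW : ∀ k t x, actW k t (π k x) = π k (act t x))
    (ρ : ∀ k, G →* Module.End ℤ (W k))
    (hcomm : ∀ k g t w, ρ k g (actW k t w) = actW k t (ρ k g w))
    (hinv : ∀ k (w : W k), (∀ g, ρ k g w = w) → c₀ • actW k P₀ w = 0)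
    (huni : ∀ k g, ∃ r : R, (∀ w, ρ k g w + ρ k g⁻¹ w = actW k (j r) w) ∧
      χ r - 2 ∈ maximalIdeal 𝒪 ^ k) : False := by
  classical
  have hflat : Module.Flat ℤ 𝒪 := inferInstance
  have hfinT : Module.Finite ℤ 𝕋 :=
    Module.Finite.of_injective act.toIntAlgHom.toLinearMap hact
  have hint : Algebra.IsIntegral ℤ 𝕋 := Algebra.IsIntegral.of_finite ℤ 𝕋
  obtain ⟨y₀, hy₀, hy₀1, hy₀2⟩ := exists_eigenvector (𝒪 := 𝒪) act hact 𝔭 h𝔭 j χ hχ
  obtain ⟨a, y, ha, rfl, hy⟩ := exists_primitive (𝒪 := 𝒪) y₀ hy₀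
  have hy1 : ∀ r, (act (j r)).baseChange 𝒪 y = χ r • y := by
    intro r
    have := hy₀1 r
    rw [map_smul, smul_comm] at this
    exact smul_right_injective _ ha this
  have hy2 : ∀ t ∈ 𝔭, (act t).baseChange 𝒪 y = 0 := by
    intro t ht
    have := hy₀2 t ht
    rw [map_smul, smul_eq_zero] at this
    exact this.resolve_left ha
  obtain ⟨Q₀, n, hn, hQ⟩ := exists_mul_sub_intCast_mem 𝔭 P₀ hP₀
  obtain ⟨ϖ, hϖ⟩ := IsDiscreteValuationRing.exists_irreducible 𝒪
  have hm : maximalIdeal 𝒪 = Ideal.span {ϖ} := hϖ.maximalIdeal_eq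
  obtain ⟨s, hs⟩ : ϖ ∣ (p : 𝒪) := by rwa [hm, Ideal.mem_span_singleton] at hp𝒪
  have hp0 : (p : 𝒪) ≠ 0 := Nat.cast_ne_zero.mpr hp.ne_zero
  have hs0 : s ≠ 0 := by
    rintro rfl
    rw [mul_zero] at hs
    exact hp0 hs
  have key : ∀ k, ϖ ^ k ∣ ((n * c₀ : ℕ) : 𝒪) ^ 3 := by
    intro k
    have hWfin : Finite (W k) := by
      have : Module.Finite ℤ (W k) := Module.Finite.of_surjective (π k) (hπ k)
      apply Module.finite_of_fg_torsion
      intro w
      refine ⟨⟨((p ^ k : ℕ) : ℤ), mem_nonZeroDivisors_of_ne_zero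
        (Nat.cast_ne_zero.mpr (pow_ne_zero _ hp.ne_zero))⟩, ?_⟩
      change ((p ^ k : ℕ) : ℤ) • w = 0
      rw [Nat.cast_smul_eq_nsmul]
      exact hpk k w
    let B := Module.End.baseChangeHom ℤ 𝒪 (W k)
    have hB : ∀ f : Module.End ℤ (W k), B f = f.baseChange 𝒪 := fun _ => rfl
    let σ : G →* Module.End 𝒪 (𝒪 ⊗[ℤ] W k) := (B : _ →* _).comp (ρ k)
    let τ : 𝕋 →+* Module.End 𝒪 (𝒪 ⊗[ℤ] W k) := (B : _ →+* _).comp (actW k)
    have hσ : ∀ g, σ g = B (ρ k g) := fun _ => rfl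
    have hτ : ∀ t, τ t = B (actW k t) := fun _ => rfl
    have hcomm' : ∀ g t v, σ g (τ t v) = τ t (σ g v) := by
      intro g t v
      have h1 : ρ k g * actW k t = actW k t * ρ k g := LinearMap.ext (hcomm k g t)
      rw [← Module.End.mul_apply, ← Module.End.mul_apply, hσ, hτ, ← map_mul, ← map_mul, h1]
    have hpkV : ∀ v : 𝒪 ⊗[ℤ] W k, (p ^ k : ℕ) • v = 0 := by
      intro v
      induction v using TensorProduct.induction_on with
      | zero => rw [smul_zero]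
      | tmul a w => rw [← TensorProduct.tmul_smul, hpk, TensorProduct.tmul_zero]
      | add u v hu hv => rw [smul_add, hu, hv, add_zero]
    have h2 : ∀ v : 𝒪 ⊗[ℤ] W k, 2 • v = 0 → v = 0 := by
      intro v hv
      obtain ⟨m, hm⟩ : Odd (p ^ k) := (hp.odd_of_ne_two hp2).pow
      have h1 := hpkV v
      rw [hm, add_smul, mul_comm, mul_smul, hv, smul_zero, zero_add, one_smul] at h1
      exact h1
    have huni' : ∀ g, ∃ r : R, (∀ v, σ g v + σ g⁻¹ v = τ (j r) v) ∧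
        χ r - 2 ∈ maximalIdeal 𝒪 ^ k := by
      intro g
      obtain ⟨r, hr, hrI⟩ := huni k g
      refine ⟨r, fun v => ?_, hrI⟩
      have h1 : ρ k g + ρ k g⁻¹ = actW k (j r) := LinearMap.ext hr
      rw [← LinearMap.add_apply, hσ, hσ, hτ, ← map_add, h1]
    have hC : ∀ v : 𝒪 ⊗[ℤ] W k, (∀ t ∈ 𝔭, τ t v = 0) → (∀ g, σ g v = v) →
        (n * c₀) • v = 0 := by
      intro v hv2 hvG
      have h1 : (c₀ • actW k P₀).baseChange 𝒪 v = 0 := by
        refine baseChange_eq_zero_of_forall (fun g => ρ k g - 1) (c₀ • actW k P₀) ?_ v ?_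
        · intro w hw
          exact hinv k w fun g => sub_eq_zero.mp (hw g)
        · intro g
          rw [← hB, map_sub, map_one, LinearMap.sub_apply, Module.End.one_apply, ← hσ, hvG,
            sub_self]
      rw [← hB, map_nsmul, ← hτ, LinearMap.smul_apply] at h1
      have h3 := hv2 _ hQ
      rw [map_sub, map_mul, map_natCast, LinearMap.sub_apply, Module.End.mul_apply, sub_eq_zero,
        Module.End.natCast_apply] at h3
      rw [mul_comm, mul_smul, ← h3, ← map_nsmul, h1, map_zero]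
    have hπτ : ∀ t (u : 𝒪 ⊗[ℤ] Λ),
        τ t ((π k).baseChange 𝒪 u) = (π k).baseChange 𝒪 ((act t).baseChange 𝒪 u) := by
      intro t u
      have h1 : (actW k t) ∘ₗ (π k) = (π k) ∘ₗ (act t) := LinearMap.ext (hactW k t)
      rw [hτ, hB, ← LinearMap.comp_apply, ← LinearMap.comp_apply, ← LinearMap.baseChange_comp,
        ← LinearMap.baseChange_comp, h1]
    have hfin := Main.pow_three_nsmul_eq_zero_of_eigen j χ σ τ hcomm' 𝔭 (maximalIdeal 𝒪 ^ k) h2
      huni' (n * c₀) hC (s ^ k • (π k).baseChange 𝒪 y)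
      (fun r => by rw [map_smul, hπτ, hy1, map_smul, smul_comm])
      (fun t ht => by rw [map_smul, hπτ, hy2 t ht, map_zero, smul_zero])
      (fun a ha => by
        rw [hm, Ideal.span_singleton_pow, Ideal.mem_span_singleton] at ha
        obtain ⟨b, rfl⟩ := ha
        rw [smul_smul, mul_right_comm, ← mul_pow, ← hs, mul_comm, mul_smul, ← Nat.cast_pow,
          Nat.cast_smul_eq_nsmul, hpkV, smul_zero])
    rw [← map_smul, ← map_nsmul] at hfin
    obtain ⟨z, hz⟩ := exists_eq_smul_of_baseChange_eq_zero (π k) (hπ k) (p ^ k) (hker k) _ hfin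
    have h4 : (((n * c₀ : ℕ) : 𝒪) ^ 3 * s ^ k) • y = ((p ^ k : ℕ) : 𝒪) • z := by
      rw [← hz, mul_smul, ← Nat.cast_pow, Nat.cast_smul_eq_nsmul]
    have h5 := dvd_of_smul_primitive y hy _ _ z h4
    rw [Nat.cast_pow, hs, mul_pow] at h5
    exact (mul_dvd_mul_iff_right (pow_ne_zero _ hs0)).mp h5
  have hC0 : ((n * c₀ : ℕ) : 𝒪) ^ 3 ≠ 0 :=
    pow_ne_zero _ (Nat.cast_ne_zero.mpr (mul_ne_zero hn hc₀))
  obtain ⟨N, hN⟩ := FiniteMultiplicity.of_not_isUnit hϖ.not_isUnit hC0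
  exact hN (key _)

end Fermat.Agent.S36.Top
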