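/-
S36 top, node G4 (architect helper36): a Hecke polynomial killing level `M'` kills the inertia
invariants of level `M = M' * q` up to the constant `c₀`.
-/
import Fermat.Agent.S36.Defs

set_option autoImplicit false
set_option linter.style.haveILetI false

namespace Fermat.Agent.S36

open Fermat.Agent.GAL Fermat.Agent.S30 Fermat.Agent.Lib.HeckeHom CuspForm
open Fermat.Agent.S16.Lift (homPE)

/-- The action of a constant polynomial. -/
theorem old_C_smul (N : ℕ) [NeZero N] (S : Set ℕ) (n : ℕ) (a : ℤ) (v : homPE N (ZMod n)) :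
    letI := moduleHA N S n
    (MvPolynomial.C a : HA) • v = a • v := by
  rw [moduleHA_smul_def]
  have : polyHom N S (MvPolynomial.C a) = (a : heckeAlgebra N 2 S) := by
    simp [polyHom]
  rw [this, map_intCast]
  simp

/-- A map between two layers (of levels `M' ∣ M`) which commutes with the `T_ℓ`, `ℓ ∤ M`, is
linear over the polynomial ring, after transport by the multiplier isomorphisms. -/
theorem old_transport_smul {M M' n : ℕ} [NeZero M] [NeZero M'] (hM : M' ∣ M) (D : LayerData M n)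
    (D' : LayerData M' n) (ν : D.W →+ D'.W)
    (hν : ∀ (ℓ : ℕ) (hℓ : ℓ.Prime) (hℓM : ¬ ℓ ∣ M) (hℓM' : ¬ ℓ ∣ M') (x : D.W),
      ν (D.TT ℓ hℓ hℓM x) = D'.TT ℓ hℓ hℓM' (ν x))
    (P : HA) (w : homPE M (ZMod n)) :
    D'.mult (ν (D.mult.symm
        (actMod M (↑M.primeFactors : Set ℕ) n (polyHom M (↑M.primeFactors : Set ℕ) P) w))) =
      actMod M' (↑M.primeFactors : Set ℕ) n (polyHom M' (↑M.primeFactors : Set ℕ) P)
        (D'.mult (ν (D.mult.symm w))) := by
  letI i1 := moduleHA M (↑M.primeFactors : Set ℕ) n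
  letI i2 := moduleHA M' (↑M.primeFactors : Set ℕ) n
  rw [← moduleHA_smul_def, ← moduleHA_smul_def]
  induction P using MvPolynomial.induction_on generalizing w with
  | C a =>
    rw [old_C_smul, old_C_smul, map_zsmul, map_zsmul, map_zsmul]
  | add P Q hP hQ => rw [add_smul, add_smul, map_add, map_add, map_add, hP, hQ]
  | mul_X P ℓ hP =>
    rw [mul_smul, mul_smul, hP]
    congr 1
    by_cases h : ℓ.Prime ∧ ¬ ℓ ∣ M ∧ ℓ ∉ (↑M.primeFactors : Set ℕ)
    · have hℓM' : ¬ ℓ ∣ M' := fun h' => h.2.1 (h'.trans hM)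
      obtain ⟨x, rfl⟩ := D.mult.surjective w
      rw [D.X_smul_mult M.primeFactors h.1 h.2.1 h.2.2, AddEquiv.symm_apply_apply,
        AddEquiv.symm_apply_apply, hν ℓ h.1 h.2.1 hℓM',
        D'.X_smul_mult M.primeFactors h.1 hℓM' h.2.2]
    · have h' : ¬ (ℓ.Prime ∧ ¬ ℓ ∣ M' ∧ ℓ ∉ (↑M.primeFactors : Set ℕ)) := by
        rintro ⟨h1, -, h3⟩
        refine h ⟨h1, fun h4 => h3 ?_, h3⟩
        exact Finset.mem_coe.mpr (Nat.mem_primeFactors.mpr ⟨h1, h4, NeZero.ne M⟩)
      rw [X_smul_of_bad M.primeFactors h, X_smul_of_bad M.primeFactors h', map_zero, map_zero,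
        map_zero]

theorem OldData.smul_actMod_eq_zero {M : ℕ} [NeZero M] {M' q n c₀ : ℕ} [NeZero M']
    {D : LayerData M n} (O : OldData M' q n c₀ D) (hM : M = M' * q) (hqM' : q ∣ M') (P : HA)
    (hP : polyHom M' (↑M.primeFactors : Set ℕ) P = 0)
    (A : ValuationSubring (AlgebraicClosure ℚ)) (hA : A.LiesOverPrime q)
    (w : homPE M (ZMod n)) (hw : ∀ σ ∈ A.inertiaSubgroupIn ℚ, D.r σ w = w) :
    c₀ • actMod M (↑M.primeFactors : Set ℕ) n (polyHom M (↑M.primeFactors : Set ℕ) P) w = 0 := by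
  have hdvd : M' ∣ M := ⟨q, hM⟩
  set w' := actMod M (↑M.primeFactors : Set ℕ) n (polyHom M (↑M.primeFactors : Set ℕ) P) w
    with hw'
  have h1 : O.N₁ (D.mult.symm w') = 0 := by
    apply O.D'.mult.injective
    rw [hw', old_transport_smul hdvd D O.D' O.N₁ O.N₁_TT P w, hP, map_zero, map_zero,
      LinearMap.zero_apply]
  have h2 : O.N₂ (D.mult.symm w') = 0 := by
    apply O.D'.mult.injective
    rw [hw', old_transport_smul hdvd D O.D' O.N₂ O.N₂_TT P w, hP, map_zero, map_zero,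
      LinearMap.zero_apply]
  have h3 : ∀ σ ∈ A.inertiaSubgroupIn ℚ, D.rho σ (D.mult.symm w') = D.mult.symm w' := by
    intro σ hσ
    apply D.mult.injective
    rw [← D.r_apply, AddEquiv.apply_symm_apply, hw', ← moduleHA_smul_def,
      D.r_smul M.primeFactors σ P w, hw σ hσ]
  have h4 := O.bprime A hA (D.mult.symm w') h3 h1 h2
  have h5 := congrArg D.mult h4
  rwa [map_nsmul, AddEquiv.apply_symm_apply, map_zero] at h5

end Fermat.Agent.S36
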