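/-
S36 top, node G2 (owner helper234): the Hecke algebra away from the level is generated by the
`T_ℓ`; comparison of the polynomial actions for two sets of excluded primes.
-/
import Fermat.Agent.Lib.HeckeHom.Faithful
import Fermat.Agent.S30.Defs
import Fermat.Agent.S29.Eigen

set_option autoImplicit false

namespace Fermat.Agent.S36

open Fermat.Agent.S30 Fermat.Agent.Lib.HeckeHom CuspForm

theorem polyHom_surjective (N : ℕ) [NeZero N] (S : Set ℕ) (hS : ∀ q : ℕ, q.Prime → q ∣ N → q ∈ S) :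
    Function.Surjective (polyHom N S) := by
  have key : ∀ (x : Module.End ℂ (CuspForm (CongruenceSubgroup.Gamma0 N) 2))
      (hx : x ∈ heckeAlgebra N 2 S), ∃ P, polyHom N S P = ⟨x, hx⟩ := by
    intro x hx
    induction hx using Algebra.adjoin_induction with
    | mem t ht =>
      rcases ht with ⟨ℓ, hℓ, hℓN, hℓS, rfl⟩ | ⟨q, hqN, hq, hqS, rfl⟩
      · exact ⟨MvPolynomial.X ℓ, by rw [polyHom_X, tOf_eq N S hℓ hℓN hℓS]; rfl⟩
      · exact absurd (hS q hq hqN) hqS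
    | algebraMap n =>
      refine ⟨MvPolynomial.C n, ?_⟩
      have : polyHom N S (MvPolynomial.C n) = algebraMap ℤ (heckeAlgebra N 2 S) n := by
        simp [polyHom]
      rw [this]
      rfl
    | add s t _ _ hs ht =>
      obtain ⟨P, hP⟩ := hs
      obtain ⟨Q, hQ⟩ := ht
      exact ⟨P + Q, by rw [map_add, hP, hQ]; rfl⟩
    | mul s t _ _ hs ht =>
      obtain ⟨P, hP⟩ := hs
      obtain ⟨Q, hQ⟩ := ht
      exact ⟨P * Q, by rw [map_mul, hP, hQ]; rfl⟩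
  intro t
  exact key t.1 t.2

/-- The polynomial ring in the `X_ℓ` acts through `T_ℓ`, `ℓ ∉ S`, inside the Hecke algebra away
from `S₁ ⊆ S`. -/
noncomputable def jHom (N : ℕ) [NeZero N] (S₁ : Set ℕ) (S : Finset ℕ) :
    HA →+* heckeAlgebra N 2 S₁ :=
  open Classical in
  (MvPolynomial.aeval fun ℓ => if ℓ ∈ S then 0 else tOf N S₁ ℓ).toRingHom

theorem jHom_X_of_mem (N : ℕ) [NeZero N] (S₁ : Set ℕ) (S : Finset ℕ) {ℓ : ℕ} (h : ℓ ∈ S) :
    jHom N S₁ S (MvPolynomial.X ℓ) = 0 := by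
  simp [jHom, h]

theorem jHom_X_of_notMem (N : ℕ) [NeZero N] (S₁ : Set ℕ) (S : Finset ℕ) {ℓ : ℕ} (h : ℓ ∉ S) :
    jHom N S₁ S (MvPolynomial.X ℓ) = tOf N S₁ ℓ := by
  simp [jHom, h]

theorem tOf_eq_zero (N : ℕ) [NeZero N] (S : Set ℕ) {ℓ : ℕ} (h : ¬ (ℓ.Prime ∧ ¬ ℓ ∣ N ∧ ℓ ∉ S)) :
    tOf N S ℓ = 0 := by
  unfold tOf
  rw [dif_neg h]

theorem actMod_jHom (N : ℕ) [NeZero N] (S₁ : Set ℕ) (S : Finset ℕ) (hS : S₁ ⊆ ↑S) (n : ℕ) (P : HA) :
    actMod N S₁ n (jHom N S₁ S P) = actMod N (↑S : Set ℕ) n (polyHom N (↑S : Set ℕ) P) := by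
  have key : (actMod N S₁ n).comp (jHom N S₁ S) =
      (actMod N (↑S : Set ℕ) n).comp (polyHom N (↑S : Set ℕ)) := by
    refine MvPolynomial.ringHom_ext (fun r => ?_) (fun ℓ => ?_)
    · exact RingHom.congr_fun (Subsingleton.elim
        (((actMod N S₁ n).comp (jHom N S₁ S)).comp MvPolynomial.C)
        (((actMod N (↑S : Set ℕ) n).comp (polyHom N (↑S : Set ℕ))).comp MvPolynomial.C)) r
    · simp only [RingHom.comp_apply]
      rw [polyHom_X]
      by_cases hℓS : ℓ ∈ S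
      · rw [jHom_X_of_mem N S₁ S hℓS, tOf_eq_zero N (↑S : Set ℕ) (fun h => h.2.2 hℓS), map_zero,
          map_zero]
      · rw [jHom_X_of_notMem N S₁ S hℓS]
        have hℓS' : ℓ ∉ (↑S : Set ℕ) := hℓS
        have hℓS₁ : ℓ ∉ S₁ := fun h => hℓS (hS h)
        by_cases hg : ℓ.Prime ∧ ¬ ℓ ∣ N
        · rw [tOf_eq N S₁ hg.1 hg.2 hℓS₁, tOf_eq N (↑S : Set ℕ) hg.1 hg.2 hℓS']
          refine LinearMap.ext fun χ => Subtype.ext ?_
          rw [coe_actMod_T, coe_actMod_T]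
        · rw [tOf_eq_zero N S₁ (fun h => hg ⟨h.1, h.2.1⟩),
            tOf_eq_zero N (↑S : Set ℕ) (fun h => hg ⟨h.1, h.2.1⟩), map_zero, map_zero]
  exact RingHom.congr_fun key P

/-- the eigencharacter of `g` on the big Hecke algebra restricts to `chig`. -/
theorem eigenChar_jHom {N : ℕ} [NeZero N] {g : CuspForm (CongruenceSubgroup.Gamma0 N) 2}
    (hg : g.IsNormalizedEigenform) (S₁ : Set ℕ) (S : Finset ℕ) (hS : S₁ ⊆ ↑S)
    (chig : heckeAlgebra N 2 (↑S : Set ℕ) →+* ℂ)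
    (hchig : ∀ (ℓ : ℕ) (hℓ : ℓ.Prime) (hℓN : ¬ ℓ ∣ N) (hℓS : ℓ ∉ (↑S : Set ℕ)),
      chig (heckeAlgebra.T hℓ hℓN hℓS) = ModularFormClass.qCoeff g ℓ) (P : HA) :
    Fermat.Agent.S29.Eigen.eigenChar hg S₁ (jHom N S₁ S P) = chig (polyHom N (↑S : Set ℕ) P) := by
  have key : (Fermat.Agent.S29.Eigen.eigenChar hg S₁).comp (jHom N S₁ S) =
      chig.comp (polyHom N (↑S : Set ℕ)) := by
    refine MvPolynomial.ringHom_ext (fun r => ?_) (fun ℓ => ?_)
    · exact RingHom.congr_fun (Subsingleton.elim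
        (((Fermat.Agent.S29.Eigen.eigenChar hg S₁).comp (jHom N S₁ S)).comp MvPolynomial.C)
        ((chig.comp (polyHom N (↑S : Set ℕ))).comp MvPolynomial.C)) r
    · simp only [RingHom.comp_apply]
      rw [polyHom_X]
      by_cases hℓS : ℓ ∈ S
      · rw [jHom_X_of_mem N S₁ S hℓS, tOf_eq_zero N (↑S : Set ℕ) (fun h => h.2.2 hℓS), map_zero,
          map_zero]
      · rw [jHom_X_of_notMem N S₁ S hℓS]
        have hℓS' : ℓ ∉ (↑S : Set ℕ) := hℓS
        have hℓS₁ : ℓ ∉ S₁ := fun h => hℓS (hS h)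
        by_cases hgood : ℓ.Prime ∧ ¬ ℓ ∣ N
        · rw [tOf_eq N S₁ hgood.1 hgood.2 hℓS₁, tOf_eq N (↑S : Set ℕ) hgood.1 hgood.2 hℓS',
            Fermat.Agent.S29.Eigen.eigenChar_T, hchig]
        · rw [tOf_eq_zero N S₁ (fun h => hgood ⟨h.1, h.2.1⟩),
            tOf_eq_zero N (↑S : Set ℕ) (fun h => hgood ⟨h.1, h.2.1⟩), map_zero, map_zero]
  exact RingHom.congr_fun key P

end Fermat.Agent.S36
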