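/-
S36 top, node G1 (architect helper36; proofs helper49).
The representation of S30 together with its link to the tower.
The first theorem is `Fermat.Agent.S30.nonempty_pseudo` (helper129) keeping track of `t`.
-/
import Fermat.Agent.S30.PseudoOfTower
import Fermat.Agent.S30.RepOfPseudo

set_option autoImplicit false

namespace Fermat.Agent.S36

open Fermat.Agent.S30 IsLocalRing Polynomial

/-- A Hecke-Galois tower gives a pseudo-representation whose trace function is computed by the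
tower. -/
theorem exists_pseudo_spec {N p : ℕ} [Fact p.Prime] {S : Finset ℕ} {𝒪 : Type} [CommRing 𝒪]
    [IsLocalRing 𝒪] [IsAdicComplete (maximalIdeal 𝒪) 𝒪] {a : ℕ → 𝒪}
    (wc : WeakCheb) (hpS : p ∈ S) (hp : (p : 𝒪) ∈ maximalIdeal 𝒪)
    (tower : ∀ k, Level N p S a k) :
    ∃ Ps : Pseudo N p S a, ∀ (k : ℕ) (g : GQ) (P : HA), (tower k).Represents g P →
      Ps.t g - MvPolynomial.aeval a P ∈ maximalIdeal 𝒪 ^ k := by
  obtain ⟨t, ht⟩ := exists_t wc hpS hp tower
  obtain ⟨ε, hε⟩ := exists_cycChar p 𝒪 hp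
  -- two elements represented by the same polynomial on every layer have the same `t`
  have hsame : ∀ (k : ℕ) (g h : GQ) (P : HA), (tower k).Represents g P →
      (tower k).Represents h P → t g - t h ∈ maximalIdeal 𝒪 ^ k := by
    intro k g h P hg hh
    have := sub_mem (ht k g P hg) (ht k h P hh)
    simpa using this
  have hex : ∀ (k : ℕ) (g : GQ), ∃ P : HA, (tower k).Represents g P := fun k g =>
    exists_represents wc hpS (tower k) g
  have hppow : ∀ k : ℕ, ((p : 𝒪)) ^ k ∈ maximalIdeal 𝒪 ^ k := fun k => Ideal.pow_mem_pow hp k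
  have hε_one : ∀ σ : GQ, (∀ k, IsCyc p k σ 1) → ε σ = 1 := by
    intro σ hσ
    apply Units.ext
    apply eq_of_forall_sub_mem
    intro k
    have := hε k σ 1 (hσ k)
    simpa using this
  refine ⟨{ t := t, ε := ε, t_one := ?_, t_comm := ?_, t_mul := ?_, t_conj := ?_, ε_conj := ?_,
            t_frob := ?_, ε_frob := ?_, t_unram := ?_, ε_unram := ?_, continuous := ?_ }, ht⟩
  · -- t_one
    apply eq_of_forall_sub_mem
    intro k
    have := ht k 1 _ (tower k).represents_one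
    simpa using this
  · -- t_comm
    intro g h
    apply eq_of_forall_sub_mem
    intro k
    obtain ⟨P, hP⟩ := hex k (g * h)
    exact hsame k _ _ P hP hP.comm
  · -- t_mul
    intro g h
    apply eq_of_forall_sub_mem
    intro k
    obtain ⟨P, hP⟩ := hex k g
    obtain ⟨Q, hQ⟩ := hex k h
    obtain ⟨R, hR⟩ := hex k (g * h)
    obtain ⟨R', hR'⟩ := hex k (g * h⁻¹)
    obtain ⟨e, he⟩ := exists_isCyc p k h
    have key := span_pow_le hp k (hP.mul_mem hQ hR hR' he)
    have h1 := Ideal.Quotient.eq.mpr (ht k g P hP)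
    have h2 := Ideal.Quotient.eq.mpr (ht k h Q hQ)
    have h3 := Ideal.Quotient.eq.mpr (ht k _ R hR)
    have h4 := Ideal.Quotient.eq.mpr (ht k _ R' hR')
    have h5 := Ideal.Quotient.eq.mpr (hε k h e he)
    have h6 := Ideal.Quotient.eq.mpr key
    rw [map_mul, map_add, map_mul] at h6
    rw [← Ideal.Quotient.eq, map_mul, map_add, map_mul, h1, h2, h3, h4, h5]
    exact h6
  · -- t_conj
    apply eq_of_forall_sub_mem
    intro k
    have := ht k _ _ (tower k).represents_complexConjugation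
    simpa using this
  · -- ε_conj
    apply Units.ext
    apply eq_of_forall_sub_mem
    intro k
    have h1 := hε k _ _ (isCyc_complexConjugation (p := p) (k := k))
    have hpos : 1 ≤ p ^ k := Nat.one_le_pow _ _ (Fact.out : p.Prime).pos
    rw [Nat.cast_sub hpos, Nat.cast_pow, Nat.cast_one] at h1
    have h2 := add_mem h1 (hppow k)
    have h3 : (ε complexConjugation : 𝒪) - ((p : 𝒪) ^ k - 1) + (p : 𝒪) ^ k
        = (ε complexConjugation : 𝒪) - ((-1 : 𝒪ˣ) : 𝒪) := by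
      rw [Units.val_neg, Units.val_one]
      ring
    rw [h3] at h2
    exact h2
  · -- t_frob
    intro ℓ hℓ hℓS σ hσ
    apply eq_of_forall_sub_mem
    intro k
    have := ht k _ _ ((tower k).represents_frob hpS hℓ hℓS hσ)
    simpa using this
  · -- ε_frob
    intro ℓ hℓ hℓS σ hσ
    have hℓp : ℓ ≠ p := fun h => hℓS (h ▸ hpS)
    apply eq_of_forall_sub_mem
    intro k
    exact hε k σ ℓ (isCyc_frob hℓ hℓp hσ)
  · -- t_unram
    intro q hq hqN hqp σ hσ g
    apply eq_of_forall_sub_mem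
    intro k
    obtain ⟨P, hP⟩ := hex k g
    exact hsame k _ _ P
      (hP.mul_right ((tower k).unramified q hq hqN hqp σ hσ) (isCyc_inertia hq hqp hσ)) hP
  · -- ε_unram
    intro q hq hqN hqp σ hσ
    exact hε_one σ fun k => isCyc_inertia hq hqp hσ
  · -- continuous
    intro n
    obtain ⟨L₁, hL₁, hρ⟩ := (tower n).finiteLevel
    obtain ⟨L₂, hL₂, hμ⟩ := exists_cycloField p n
    refine ⟨L₁ ⊔ L₂, IntermediateField.finiteDimensional_sup L₁ L₂, ?_⟩
    intro σ hσ
    have h1 : (tower n).ρ σ = 1 := hρ σ fun x hx => hσ x ((le_sup_left : L₁ ≤ L₁ ⊔ L₂) hx)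
    have h2 : IsCyc p n σ 1 := by
      intro μ hμ1
      rw [pow_one]
      exact hσ μ ((le_sup_right : L₂ ≤ L₁ ⊔ L₂) (hμ μ hμ1))
    refine ⟨fun g => ?_, ?_⟩
    · obtain ⟨P, hP⟩ := hex n g
      exact hsame n _ _ P (hP.mul_right h1 h2) hP
    · have := hε n σ 1 h2
      simpa using this

theorem exists_rep_spec {N p : ℕ} [Fact p.Prime] {S : Finset ℕ} {𝒪 : Type} [CommRing 𝒪]
    [IsDomain 𝒪] [IsDiscreteValuationRing 𝒪] [IsAdicComplete (maximalIdeal 𝒪) 𝒪] [CharZero 𝒪]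
    {a : ℕ → 𝒪} (wc : WeakCheb) (hpS : p ∈ S) (hp : (p : 𝒪) ∈ maximalIdeal 𝒪)
    (tower : ∀ k, Level N p S a k) :
    ∃ (ρ : GaloisRepAdic 𝒪) (t : GQ → 𝒪) (ε : GQ → 𝒪),
      (∀ g, LinearMap.charpoly (ρ.ρ g) = X ^ 2 - C (t g) * X + C (ε g)) ∧
      (∀ ℓ : ℕ, ℓ.Prime → ℓ ∉ S → ∀ σ : GQ, IsFrob σ ℓ → t σ = a ℓ ∧ ε σ = (ℓ : 𝒪)) ∧
      (∀ (k : ℕ) (g : GQ) (P : HA), (tower k).Represents g P →
        t g - MvPolynomial.aeval a P ∈ maximalIdeal 𝒪 ^ k) := by
  obtain ⟨Ps, hPs⟩ := exists_pseudo_spec wc hpS hp tower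
  obtain ⟨ρ, hρ, -⟩ := exists_rep_of_pseudo Ps
  exact ⟨ρ, Ps.t, fun g => (Ps.ε g : 𝒪), hρ,
    fun ℓ hℓ hℓS σ hσ => ⟨Ps.t_frob ℓ hℓ hℓS σ hσ, Ps.ε_frob ℓ hℓ hℓS σ hσ⟩, hPs⟩

end Fermat.Agent.S36
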