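/-
S36 top, node G7 (architect helper36, proof helper207): the conclusion of S36 from the layers of the
Kummer model, the data `OldData` at the primes `q` with `q ^ 2 ∥ M`, and the abstract contradiction
`Top.false_of_unipotent`.
-/
import Fermat.Agent.S36.Defs
import Fermat.Agent.S36.Top.Main
import Fermat.Agent.S36.Top.PseudoSpec
import Fermat.Agent.S36.Top.PolyHom
import Fermat.Agent.S36.Top.Commute
import Fermat.Agent.S36.Top.Old
import Fermat.Agent.S36.New.Main
import Fermat.Agent.Lib.Frobenius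
import Fermat.Agent.GAL.UTowerLevel
import Fermat.Agent.S30.Density
import Fermat.Agent.S29.Eigen
import Fermat.Prelude.Def_GaloisRep_LocalConditions

set_option autoImplicit false

namespace Fermat.Agent.S36

open Fermat.Agent.GAL Fermat.Agent.S30 Fermat.Agent.Lib.HeckeHom CuspForm IsLocalRing Polynomial
open Fermat.Agent.S16.Lift (homPE)

/-- The transported Galois action of a layer, as a representation on an abelian group. -/
noncomputable def Result.rInt {N : ℕ} [NeZero N] {n : ℕ} (D : LayerData N n) :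
    GQ →* Module.End ℤ (homPE N (ZMod n)) where
  toFun σ := (D.r σ).toIntLinearMap
  map_one' := by
    refine LinearMap.ext fun w => ?_
    show D.r 1 w = w
    rw [D.r_apply, map_one]
    exact D.mult.apply_symm_apply w
  map_mul' σ τ := by
    refine LinearMap.ext fun w => ?_
    show D.r (σ * τ) w = D.r σ (D.r τ w)
    rw [D.r_apply, D.r_apply, D.r_apply, map_mul, AddEquiv.symm_apply_apply]
    rfl

theorem Result.rInt_apply {N : ℕ} [NeZero N] {n : ℕ} (D : LayerData N n) (σ : GQ)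
    (w : homPE N (ZMod n)) : Result.rInt D σ w = D.r σ w := rfl

/-- `heckeFun` of GAL and `tOf` of the Hecke library agree. -/
theorem Result.heckeFun_eq_tOf (N : ℕ) [NeZero N] (S : Finset ℕ) :
    heckeFun N S = tOf N (↑S : Set ℕ) := by
  funext ℓ
  by_cases h : ℓ.Prime ∧ ¬ ℓ ∣ N ∧ ℓ ∉ (↑S : Set ℕ)
  · rw [heckeFun_eq h.1 h.2.1 h.2.2, tOf_eq N _ h.1 h.2.1 h.2.2]
  · unfold heckeFun tOf
    rw [dif_neg h, dif_neg h]

/-- comparison of the coefficients of `X` in a quadratic polynomial. -/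
theorem Result.eq_two_of_charpoly {R : Type*} [CommRing R] (t e : R)
    (h : (X ^ 2 - C t * X + C e : R[X]) = (X - 1) ^ 2) : t = 2 := by
  have h1 := congrArg (fun f : R[X] => f.coeff 1) h
  have h2 : ((X - 1) ^ 2 : R[X]) = X ^ 2 - C 2 * X + C 1 := by
    simp only [map_ofNat, map_one]
    ring
  rw [h2] at h1
  simp only [coeff_add, coeff_sub, coeff_X_pow, coeff_C_mul, coeff_X_one, coeff_C] at h1
  norm_num at h1
  exact h1

theorem result_of_layers (wc : WeakCheb)
    {M : ℕ} [NeZero M] {g : CuspForm (CongruenceSubgroup.Gamma0 M) 2} (hg : g.IsNewform)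
    (lam : ℕ) [Fact lam.Prime]
    (S : Finset ℕ)
    (O' : Type) [CommRing O'] [IsDomain O'] [IsDiscreteValuationRing O']
    [IsAdicComplete (IsLocalRing.maximalIdeal O') O'] [Finite (IsLocalRing.ResidueField O')]
    [CharZero O'] (hlamO' : (lam : O') ∈ IsLocalRing.maximalIdeal O')
    (hlam2 : lam ≠ 2)
    (chig : CuspForm.heckeAlgebra M 2 (↑S : Set ℕ) →+* ℂ)
    (hchig : ∀ (ℓ : ℕ) (hℓ : ℓ.Prime) (hℓM : ¬ ℓ ∣ M) (hℓS : ℓ ∉ (↑S : Set ℕ)),
      chig (CuspForm.heckeAlgebra.T hℓ hℓM hℓS) = ModularFormClass.qCoeff g ℓ)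
    (iota : chig.range →+* O')
    (hlamS : lam ∈ S) (hMS : ∀ q : ℕ, q.Prime → q ∣ M → q ∈ S)
    (D : ∀ k : ℕ, LayerData M (lam ^ k))
    (old : ∀ q : ℕ, q.Prime → q ≠ lam → M.factorization q = 2 →
      ∃ (M' c₀ : ℕ) (_ : NeZero M'), M = M' * q ∧ q ∣ M' ∧ c₀ ≠ 0 ∧
        ∀ k : ℕ, Nonempty (OldData M' q (lam ^ k) c₀ (D k))) :
    ∃ (O'' : Type) (_ : CommRing O'') (_ : IsDomain O'') (_ : IsDiscreteValuationRing O'')
      (_ : IsAdicComplete (IsLocalRing.maximalIdeal O'') O'') (_ : Finite (IsLocalRing.ResidueField O''))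
      (_ : CharZero O'') (_ : Algebra O' O'') (_ : Module.Finite O' O'') (_ : IsLocalHom (algebraMap O' O'')),
      Function.Injective (algebraMap O' O'') ∧
      ∃ ρ : GaloisRepAdic O'',
        (∀ (ℓ : ℕ) (hℓ : ℓ.Prime) (hℓM : ¬ ℓ ∣ M) (hℓS : ℓ ∉ (↑S : Set ℕ)),
          ∀ A : ValuationSubring (AlgebraicClosure ℚ), A.LiesOverPrime ℓ →
            ∀ σ : AlgebraicClosure ℚ ≃ₐ[ℚ] AlgebraicClosure ℚ, A.IsFrobeniusAt σ ℓ →
              LinearMap.charpoly (ρ.ρ σ) =
                X ^ 2 - C (algebraMap O' O'' ((iota.comp chig.rangeRestrict) (CuspForm.heckeAlgebra.T hℓ hℓM hℓS))) * X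
                  + C ((ℓ : O''))) ∧
        (∀ q : ℕ, q.Prime → q ≠ lam → M.factorization q = 2 → ¬ ρ.IsUnipotentOnInertiaAt q) := by
  have hlam : lam.Prime := Fact.out
  set χ : heckeAlgebra M 2 (↑S : Set ℕ) →+* O' := iota.comp chig.rangeRestrict with hχdef
  let U : UTower M lam S := utowerOfLayers hlam S hMS hlamS D
  let a : ℕ → O' := fun ℓ => χ (heckeFun M S ℓ)
  let tower : ∀ k, Level M lam S a k := fun k => U.level hlam.ne_zero χ k
  obtain ⟨ρ, t, ε, hcp, hfrob, hrep⟩ := exists_rep_spec wc hlamS hlamO' tower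
  refine ⟨O', inferInstance, inferInstance, inferInstance, inferInstance, inferInstance,
    inferInstance, Algebra.id O', Module.Finite.self O', ⟨fun a ha => ha⟩, Function.injective_id,
    ρ, ?_, ?_⟩
  · intro ℓ hℓ hℓM hℓS A hA σ hσ
    have hS' : ℓ ∉ S := fun h => hℓS (Finset.mem_coe.mpr h)
    obtain ⟨h1, h2⟩ := hfrob ℓ hℓ hS' σ ⟨A, hA, hσ⟩
    rw [hcp σ, h1, h2]
    show X ^ 2 - C (χ (heckeFun M S ℓ)) * X + C (ℓ : O') = _
    rw [heckeFun_eq hℓ hℓM hℓS]
    rfl
  · intro q hq hql hfac huni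
    obtain ⟨M', c₀, hM'0, hM, hqM', hc₀, hold⟩ := old q hq hql hfac
    obtain ⟨A, hA⟩ := Lib.Frobenius.exists_liesOverPrime q hq
    obtain ⟨P, hP0, hP1⟩ := exists_poly_of_isNewform hg M' q hM hq hqM'
    have hsub : (↑M.primeFactors : Set ℕ) ⊆ (↑S : Set ℕ) := by
      intro r hr
      have hr' := Nat.mem_primeFactors.mp (Finset.mem_coe.mp hr)
      exact Finset.mem_coe.mpr (hMS r hr'.1 hr'.2.1)
    have hpf : ∀ r : ℕ, r.Prime → r ∣ M → r ∈ M.primeFactors := fun r hr hrM =>
      Nat.mem_primeFactors.mpr ⟨hr, hrM, NeZero.ne M⟩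
    have ht2 : ∀ σ ∈ A.inertiaSubgroupIn ℚ, t σ = 2 := by
      intro σ hσ
      have h1 := huni A hA σ hσ
      rw [hcp σ] at h1
      exact Result.eq_two_of_charpoly _ _ h1
    have haeval : ∀ r : HA, MvPolynomial.aeval a r = χ (polyHom M (↑S : Set ℕ) r) := by
      intro r
      rw [map_polyHom, ← Result.heckeFun_eq_tOf]
    have hprime : (RingHom.ker
        (Fermat.Agent.S29.Eigen.eigenChar hg.1 (↑M.primeFactors : Set ℕ))).IsPrime :=
      RingHom.ker_isPrime _
    refine Top.false_of_unipotent (𝒪 := O') lam hlam hlam2 hlamO'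
      (Λ := Lam M) (𝕋 := heckeAlgebra M 2 (↑M.primeFactors : Set ℕ))
      (latHom M (↑M.primeFactors : Set ℕ)) (latHom_injective M (↑M.primeFactors : Set ℕ))
      (RingHom.ker (Fermat.Agent.S29.Eigen.eigenChar hg.1 (↑M.primeFactors : Set ℕ)))
      ?_ (R := HA) (jHom M (↑M.primeFactors : Set ℕ) S) (MvPolynomial.aeval a).toRingHom ?_
      (polyHom M (↑M.primeFactors : Set ℕ) P) ?_ c₀ hc₀
      (G := ↥(A.inertiaSubgroupIn ℚ))
      (fun k => homPE M (ZMod (lam ^ k)))
      (fun k => (redHom M (lam ^ k)).toIntLinearMap)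
      (fun k => redHom_surjective M (lam ^ k))
      (fun k x hx => (redHom_eq_zero_iff M (lam ^ k) x).1 hx)
      (fun k w => nsmul_homPE_eq_zero M (lam ^ k) w)
      (fun k => actMod M (↑M.primeFactors : Set ℕ) (lam ^ k))
      (fun k t x => actMod_redHom M (↑M.primeFactors : Set ℕ) (lam ^ k) t x)
      (fun k => (Result.rInt (D k)).comp (A.inertiaSubgroupIn ℚ).subtype)
      (fun k σ t w => LayerData.r_actMod (D k) M.primeFactors hpf σ t w) ?_ ?_
    · intro n hn
      rw [RingHom.mem_ker, map_intCast] at hn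
      exact_mod_cast hn
    · intro r hr
      rw [RingHom.mem_ker, eigenChar_jHom hg.1 _ S hsub chig hchig] at hr
      show MvPolynomial.aeval a r = 0
      rw [haeval r, hχdef, RingHom.comp_apply]
      have : chig.rangeRestrict (polyHom M (↑S : Set ℕ) r) = 0 := Subtype.ext hr
      rw [this, map_zero]
    · rw [RingHom.mem_ker]
      exact hP1
    · intro k w hw
      obtain ⟨O⟩ := hold k
      exact O.smul_actMod_eq_zero hM hqM' P hP0 A hA w (fun σ hσ => hw ⟨σ, hσ⟩)
    · intro k σ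
      obtain ⟨Q, hQ⟩ := exists_represents wc hlamS (tower k) (σ : GQ)
      refine ⟨Q, ?_, ?_⟩
      · intro w
        have h1 := hQ 1 (isCyc_inertia hq hql ⟨A, hA, σ.2⟩) w
        rw [one_smul] at h1
        rw [actMod_jHom M _ S hsub]
        exact h1
      · have h1 := hrep k σ Q hQ
        rw [ht2 σ σ.2] at h1
        have h2 : (MvPolynomial.aeval a).toRingHom Q - 2 = -(2 - MvPolynomial.aeval a Q) := by
          show MvPolynomial.aeval a Q - 2 = _
          ring
        rw [h2]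
        exact neg_mem h1

end Fermat.Agent.S36
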