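/-
S36 top (captain helper36).  The conclusion of S36 from its inputs:
* `KLStatement`, `HeckeOpStatement`, `MultStatement` (cluster GAL),
* `BPrime` (project BAD: bridge + abstract core + modular instance),
* `OldDataStatement` (block Norm: the norm maps on the Kummer model).
-/
import Fermat.Agent.S36.Top.Result
import Fermat.Agent.GAL.Tower.WithH

set_option autoImplicit false

namespace Fermat.Agent.S36

open Fermat.Agent.GAL Fermat.Agent.S30 Fermat.Agent.Lib.HeckeHom CuspForm IsLocalRing Polynomial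

/-- The deliverable of block Norm (node G8). -/
def OldDataStatement : Prop :=
  ∀ (hKL : KLStatement) (hH : HeckeOpStatement) (hMu : MultStatement)
    (q : ℕ) [NeZero q] (N : ℕ) [NeZero N], q.Prime → q ∣ N → ∀ c₀ : ℕ,
    (∀ A : ValuationSubring (AlgebraicClosure ℚ), A.LiesOverPrime q →
      ∀ n : ℕ, ¬ q ∣ n → ∀ u : E.kum (N * q) n,
        (∀ σ ∈ A.inertiaSubgroupIn ℚ, E.rho (N * q) n σ (E.cls u) = E.cls u) →
        (∃ v : Fermat.Agent.S24.FN N,
          E.normAlpha N q ((u : (Fermat.Agent.S24.FN (N * q))ˣ) : Fermat.Agent.S24.FN (N * q)) =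
            v ^ n) →
        (∃ v : Fermat.Agent.S24.FN N,
          normBeta N q ((u : (Fermat.Agent.S24.FN (N * q))ˣ) : Fermat.Agent.S24.FN (N * q)) =
            v ^ n) →
        c₀ • E.cls u = 0) →
    ∀ (n : ℕ) (hn : 0 < n), ¬ q ∣ n →
      Nonempty (OldData N q n c₀ (concreteLayer hKL hH hMu (N * q) n hn))

theorem result_of_inputs (hKL : KLStatement) (hH : HeckeOpStatement)
    (hMu : MultStatement) (hB : BPrime) (hOld : OldDataStatement)
    {M : ℕ} [NeZero M] {g : CuspForm (CongruenceSubgroup.Gamma0 M) 2} (hg : g.IsNewform)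
    (lam : ℕ) [Fact lam.Prime]
    (S : Finset ℕ)
    (O' : Type) [CommRing O'] [IsDomain O'] [IsDiscreteValuationRing O']
    [IsAdicComplete (IsLocalRing.maximalIdeal O') O'] [Finite (IsLocalRing.ResidueField O')]
    [CharZero O'] (hlamO' : (lam : O') ∈ IsLocalRing.maximalIdeal O')
    (hlam2 : lam ≠ 2)
    (chig : CuspForm.heckeAlgebra M 2 (↑S : Set ℕ) →+* ℂ)
    (hchig : ∀ (ℓ : ℕ) (hℓ : ℓ.Prime) (hℓM : ¬ ℓ ∣ M) (hℓS : ℓ ∉ (↑S : Set ℕ)),
      chig (CuspForm.heckeAlgebra.T hℓ hℓM hℓS) = ModularFormClass.qCoeff g ℓ)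
    (iota : chig.range →+* O')
    (hlamS : lam ∈ S) (hMS : ∀ q : ℕ, q.Prime → q ∣ M → q ∈ S) :
    ∃ (O'' : Type) (_ : CommRing O'') (_ : IsDomain O'') (_ : IsDiscreteValuationRing O'')
      (_ : IsAdicComplete (IsLocalRing.maximalIdeal O'') O'') (_ : Finite (IsLocalRing.ResidueField O''))
      (_ : CharZero O'') (_ : Algebra O' O'') (_ : Module.Finite O' O'') (_ : IsLocalHom (algebraMap O' O'')),
      Function.Injective (algebraMap O' O'') ∧
      ∃ ρ : GaloisRepAdic O'',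
        (∀ (ℓ : ℕ) (hℓ : ℓ.Prime) (hℓM : ¬ ℓ ∣ M) (hℓS : ℓ ∉ (↑S : Set ℕ)),
          ∀ A : ValuationSubring (AlgebraicClosure ℚ), A.LiesOverPrime ℓ →
            ∀ σ : AlgebraicClosure ℚ ≃ₐ[ℚ] AlgebraicClosure ℚ, A.IsFrobeniusAt σ ℓ →
              LinearMap.charpoly (ρ.ρ σ) =
                X ^ 2 - C (algebraMap O' O'' ((iota.comp chig.rangeRestrict) (CuspForm.heckeAlgebra.T hℓ hℓM hℓS))) * X
                  + C ((ℓ : O''))) ∧
        (∀ q : ℕ, q.Prime → q ≠ lam → M.factorization q = 2 → ¬ ρ.IsUnipotentOnInertiaAt q) := by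
  have hlam : lam.Prime := Fact.out
  refine result_of_layers Fermat.Agent.GAL.Tower.weakCheb hg lam S O' hlamO' hlam2 chig hchig iota
    hlamS hMS (fun k => concreteLayer hKL hH hMu M (lam ^ k) (pow_pos hlam.pos k)) ?_
  intro q hq hql hfac
  have : NeZero q := ⟨hq.ne_zero⟩
  have hM0 : M ≠ 0 := NeZero.ne M
  have hq2 : q ^ 2 ∣ M := by
    have := Nat.ordProj_dvd M q
    rwa [hfac] at this
  have hq3 : ¬ q ^ 3 ∣ M := by
    intro h
    have := (hq.pow_dvd_iff_le_factorization hM0).mp h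
    omega
  obtain ⟨N, rfl⟩ : ∃ N, M = N * q := by
    obtain ⟨c, hc⟩ := hq2
    exact ⟨q * c, by rw [hc]; ring⟩
  have hN0 : N ≠ 0 := by
    rintro rfl
    exact hM0 (by simp)
  have : NeZero N := ⟨hN0⟩
  have hqN : q ∣ N := by
    have h : q * q ∣ N * q := by rwa [← sq]
    exact Nat.dvd_of_mul_dvd_mul_right hq.pos h
  have hqN2 : ¬ q ^ 2 ∣ N := by
    intro h
    apply hq3
    rw [pow_succ]
    exact Nat.mul_dvd_mul_right h q
  obtain ⟨c₀, hc₀, hB'⟩ := hB q N hq hqN hqN2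
  refine ⟨N, c₀, inferInstance, rfl, hqN, hc₀, fun k => ?_⟩
  have hqn : ¬ q ∣ lam ^ k := fun h =>
    hql ((Nat.prime_dvd_prime_iff_eq hq hlam).mp (hq.dvd_of_dvd_pow h))
  exact hOld hKL hH hMu q N hq hqN c₀ hB' (lam ^ k) (pow_pos hlam.pos k) hqn

end Fermat.Agent.S36
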