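/-
S36: final wiring (helper96).  The frozen statement S36 from the single remaining input
`ModelStatement` (the modular instance of the abstract model `BP.Model`).

Everything else is proved: `GAL.klStatement`, `GAL.heckeOpStatement`, `GAL.Mult.multStatement`,
`S36.nonempty_oldData` (block Norm), `BAD.Bridge.bprime_of_bpAbs_of_model` (bridge),
`BP.Model.bp_abs` (abstract core), `S36.result_of_inputs` (top).
-/
import Fermat.Agent.S36.Top.Final
import Fermat.Agent.S36.Norm.OldData
import Fermat.Agent.S36.BP.Main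
import Fermat.Agent.BAD.Bridge.Top
import Fermat.Agent.GAL.KLInputs.Main
import Fermat.Agent.GAL.Mult.Final
import Fermat.Agent.GAL.Mult.Statement

set_option autoImplicit false

namespace Fermat.Agent.S36

open Fermat.Agent.GAL CuspForm IsLocalRing Polynomial

/-- The abstract core in the shape consumed by the bridge. -/
theorem bpAbs : Fermat.Agent.BAD.Bridge.BpAbs :=
  fun _F _ _K₀ _ _ _A₀ _q _x _V _ϖm _Eα _Eβ _Nα _Nβ M _n hn _u hu hd ha hb =>
    M.bp_abs hn hu hd ha hb

/-- Statement (B') from the modular instance. -/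
theorem bprime_of_modelStatement (hM : ModelStatement) : BPrime :=
  Fermat.Agent.BAD.Bridge.bprime_of_bpAbs_of_model bpAbs hM

/-- Block Norm in the shape consumed by the top. -/
theorem oldDataStatement : OldDataStatement :=
  fun hKL hH hMu q _ N _ hq hqN c₀ hB n hn hqn => nonempty_oldData hKL hH hMu q N hq hqN c₀ hB n hn hqn

/-- **The frozen statement S36 from the modular instance.** -/
theorem result_of_modelStatement (hModel : ModelStatement)
    {M : ℕ} [NeZero M] {g : CuspForm (CongruenceSubgroup.Gamma0 M) 2} (hg : g.IsNewform)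
    (lam : ℕ) [Fact lam.Prime]
    (S : Finset ℕ)
    (O' : Type) [CommRing O'] [IsDomain O'] [IsDiscreteValuationRing O']
    [IsAdicComplete (IsLocalRing.maximalIdeal O') O'] [Finite (IsLocalRing.ResidueField O')]
    [CharZero O'] (hlamO' : (lam : O') ∈ IsLocalRing.maximalIdeal O')
    (hlam2 : lam ≠ 2)
    (chig : CuspForm.heckeAlgebra M 2 (↑S : Set ℕ) →+* ℂ)
    (hchig : ∀ (ℓ : ℕ) (hℓ : ℓ.Prime) (hℓM : ¬ ℓ ∣ M) (hℓS : ℓ ∉ (↑S : Set ℕ)),
      chig (CuspForm.heckeAlgebra.T hℓ hℓM hℓS) = ModularFormClass.qCoeff g ℓ)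
    (iota : chig.range →+* O')
    (hlamS : lam ∈ S) (hMS : ∀ q : ℕ, q.Prime → q ∣ M → q ∈ S)
    (hres : ∀ (O'' : Type) [CommRing O''] [IsDomain O''] [IsDiscreteValuationRing O'']
      [IsAdicComplete (IsLocalRing.maximalIdeal O'') O''] [Finite (IsLocalRing.ResidueField O'')] [CharZero O'']
      [Algebra O' O''] [Module.Finite O' O''] [IsLocalHom (algebraMap O' O'')],
      Function.Injective (algebraMap O' O'') → ∀ (ρ : GaloisRepAdic O''),
      (∀ (ℓ : ℕ) (hℓ : ℓ.Prime) (hℓlam : ℓ ≠ lam) (hℓM : ¬ ℓ ∣ M) (hℓS : ℓ ∉ (↑S : Set ℕ)),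
        ∀ A : ValuationSubring (AlgebraicClosure ℚ), A.LiesOverPrime ℓ →
          ∀ σ : AlgebraicClosure ℚ ≃ₐ[ℚ] AlgebraicClosure ℚ, A.IsFrobeniusAt σ ℓ →
            LinearMap.charpoly (ρ.ρ σ) =
              X ^ 2 - C (algebraMap O' O'' ((iota.comp chig.rangeRestrict) (CuspForm.heckeAlgebra.T hℓ hℓM hℓS))) * X
                + C ((ℓ : O'')))
      → ρ.residual.IsAbsolutelyIrreducible ∧ ρ.residual.IsOdd)
    :
    ∃ (O'' : Type) (_ : CommRing O'') (_ : IsDomain O'') (_ : IsDiscreteValuationRing O'')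
      (_ : IsAdicComplete (IsLocalRing.maximalIdeal O'') O'') (_ : Finite (IsLocalRing.ResidueField O''))
      (_ : CharZero O'') (_ : Algebra O' O'') (_ : Module.Finite O' O'') (_ : IsLocalHom (algebraMap O' O'')),
      Function.Injective (algebraMap O' O'') ∧
      ∃ ρ : GaloisRepAdic O'',
        (∀ (ℓ : ℕ) (hℓ : ℓ.Prime) (hℓM : ¬ ℓ ∣ M) (hℓS : ℓ ∉ (↑S : Set ℕ)),
          ∀ A : ValuationSubring (AlgebraicClosure ℚ), A.LiesOverPrime ℓ →
            ∀ σ : AlgebraicClosure ℚ ≃ₐ[ℚ] AlgebraicClosure ℚ, A.IsFrobeniusAt σ ℓ →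
              LinearMap.charpoly (ρ.ρ σ) =
                X ^ 2 - C (algebraMap O' O'' ((iota.comp chig.rangeRestrict) (CuspForm.heckeAlgebra.T hℓ hℓM hℓS))) * X
                  + C ((ℓ : O''))) ∧
        (∀ q : ℕ, q.Prime → q ≠ lam → M.factorization q = 2 → ¬ ρ.IsUnipotentOnInertiaAt q) :=
  result_of_inputs klStatement Mult.heckeOpStatement Mult.multStatement
    (bprime_of_modelStatement hModel) oldDataStatement hg lam S O' hlamO' hlam2 chig hchig iota
    hlamS hMS

end Fermat.Agent.S36
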